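/-
Programme I (S33, p-new half), contract D-B3 §4d, main-dialect half (helper29), part 2:
Galois-stable levels of the tower `S ↦ K₀(S)` of `BR/Inst/Levels` are cofinal.

* `GalStable q σ S` : `σ (K₀(S)) = K₀(S)` (elementwise, as an iff);
* `galStable_of_forall_mem` : a level `S` which is stable as a set under `σ` and `σ⁻¹`;
* `exists_galStable` : every level lies in a level which is stable under ALL `σ`
  (adjoin the conjugates).
-/
import Mathlib
import Fermat.Agent.BR.Inst.Levels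

set_option autoImplicit false

namespace Fermat.Agent.FF3.InertiaLevels

open Fermat.Agent.X0 Fermat.Agent.BR.UnramCyclo Fermat.Agent.BR.UnramCycloTower
open Fermat.Agent.BR.Inst.Levels

local notation "Kb" => AlgebraicClosure ℚ

/-- `ℚ̄` is algebraic over `ℚ` for the `ℚ`-algebra structure in force -/
theorem isAlgebraic_Kb_apply [inst : Algebra ℚ Kb] (x : Kb) : IsAlgebraic ℚ x := by
  have h : inst = AlgebraicClosure.instAlgebra ℚ := Subsingleton.elim _ _
  subst h
  exact Algebra.IsAlgebraic.isAlgebraic x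

/-- the level `S` is stable under `σ`: `σ (K₀(S)) = K₀(S)` -/
def GalStable (q : ℕ) (σ : Kb ≃ₐ[ℚ] Kb) (S : Finset Kb) : Prop :=
  ∀ c : Kb, σ c ∈ KS q S ↔ c ∈ KS q S

/-- `σ` maps `K₀(S)` into `K₀(S)` as soon as it maps `S` into `S` -/
theorem apply_mem_KS_of_forall_mem (q : ℕ) (σ : Kb ≃ₐ[ℚ] Kb) {S : Finset Kb}
    (hS : ∀ x ∈ S, σ x ∈ S) {c : Kb} (hc : c ∈ KS q S) : σ c ∈ KS q S := by
  have hmap : (coeffField q S).map (σ : Kb →ₐ[ℚ] Kb) ≤ coeffField q S := by
    unfold coeffField cycloField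
    rw [IntermediateField.map_sup, IntermediateField.adjoin_map, IntermediateField.adjoin_map]
    refine sup_le_sup (IntermediateField.adjoin.mono ℚ _ _ ?_)
      (IntermediateField.adjoin.mono ℚ _ _ ?_)
    · rintro _ ⟨ζ, ⟨m, hm, hqm, hζ⟩, rfl⟩
      refine ⟨m, hm, hqm, ?_⟩
      show (σ ζ) ^ m = 1
      rw [← map_pow, hζ, map_one]
    · rintro _ ⟨x, hx, rfl⟩
      exact Finset.mem_coe.mpr (hS x (Finset.mem_coe.mp hx))
  exact hmap ⟨c, hc, rfl⟩

/-- a level which is stable as a set under `σ` and `σ⁻¹` is Galois-stable -/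
theorem galStable_of_forall_mem (q : ℕ) (σ : Kb ≃ₐ[ℚ] Kb) {S : Finset Kb}
    (hS : ∀ x ∈ S, σ x ∈ S) (hS' : ∀ x ∈ S, σ.symm x ∈ S) : GalStable q σ S := by
  intro c
  refine ⟨fun h => ?_, fun h => apply_mem_KS_of_forall_mem q σ hS h⟩
  have := apply_mem_KS_of_forall_mem q σ.symm hS' h
  rwa [AlgEquiv.symm_apply_apply] at this

/-- **The Galois-stable levels are cofinal**: every level lies in a level which is stable under
all `σ`. -/
theorem exists_galStable (q : ℕ) (S : Finset Kb) :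
    ∃ S' : Finset Kb, S ⊆ S' ∧ ∀ σ : Kb ≃ₐ[ℚ] Kb, GalStable q σ S' := by
  classical
  let p : Polynomial ℚ := ∏ x ∈ S, minpoly ℚ x
  have hp0 : p ≠ 0 := by
    refine Finset.prod_ne_zero_iff.mpr fun x _ => ?_
    exact minpoly.ne_zero (isAlgebraic_Kb_apply x).isIntegral
  have hmem : ∀ y : Kb, y ∈ (p.map (algebraMap ℚ Kb)).roots.toFinset ↔
      Polynomial.aeval y p = 0 := by
    intro y
    rw [Multiset.mem_toFinset, Polynomial.mem_roots (Polynomial.map_ne_zero hp0),
      Polynomial.IsRoot.def, Polynomial.eval_map, ← Polynomial.aeval_def]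
  have hstab : ∀ (σ : Kb ≃ₐ[ℚ] Kb), ∀ y ∈ (p.map (algebraMap ℚ Kb)).roots.toFinset,
      σ y ∈ (p.map (algebraMap ℚ Kb)).roots.toFinset := by
    intro σ y hy
    rw [hmem] at hy ⊢
    rw [← AlgEquiv.coe_toAlgHom, Polynomial.aeval_algHom_apply, hy, map_zero]
  refine ⟨(p.map (algebraMap ℚ Kb)).roots.toFinset, fun x hx => ?_, fun σ => ?_⟩
  · rw [hmem]
    show Polynomial.aeval x (∏ x ∈ S, minpoly ℚ x) = 0
    rw [map_prod]
    exact Finset.prod_eq_zero hx (minpoly.aeval ℚ x)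
  · exact galStable_of_forall_mem q σ (hstab σ) (hstab σ.symm)

end Fermat.Agent.FF3.InertiaLevels
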