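/-
Programme I (S33, p-new half), contract D-B3 §4d, main-dialect half (helper29), part 1:
transport of the constructions of the level tower (`Subring.closure`, `Subfield.closure`,
`ChartInModel.modelOf`, `LocSub.locSub`, `constField`) by a ring endomorphism / a semilinear
automorphism of the ambient field.

* `map_mem_subring_closure`, `map_mem_subfield_closure`, `isIntegral_map_of_maps`,
  `map_mem_modelOf`, `map_mem_locSub` : one direction, for a ring endomorphism `G : Ω →+* Ω`;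
* `smul_mem_iff_of_forall` : the two directions from the statement for `g` and for `g⁻¹`.
-/
import Mathlib
import Fermat.Agent.BR.Inst.LocSub
import Fermat.Agent.BR.Inst.ChartInModel

set_option autoImplicit false

namespace Fermat.Agent.FF3.InertiaLevels

open Fermat.Agent.BR.Inst.LocSub Fermat.Agent.BR.Inst.ChartInModel

section Endo

variable {Ω : Type*} [Field Ω] (G : Ω →+* Ω)

theorem map_mem_subring_closure {s : Set Ω} {T : Subring Ω} (h : ∀ y ∈ s, G y ∈ T) {x : Ω}
    (hx : x ∈ Subring.closure s) : G x ∈ T := by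
  have hle : Subring.closure s ≤ T.comap G := Subring.closure_le.mpr fun y hy => h y hy
  exact hle hx

theorem map_mem_subfield_closure {s : Set Ω} {T : Subfield Ω} (h : ∀ y ∈ s, G y ∈ T) {x : Ω}
    (hx : x ∈ Subfield.closure s) : G x ∈ T := by
  have hle : Subfield.closure s ≤ T.comap G := Subfield.closure_le.mpr fun y hy => h y hy
  exact hle hx

/-- the image of an element integral over `R` is integral over `R'` when `G R ⊆ R'` -/
theorem isIntegral_map_of_maps {R R' : Subring Ω} (h : ∀ r ∈ R, G r ∈ R') {x : Ω}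
    (hx : IsIntegral ↥R x) : IsIntegral ↥R' (G x) := by
  obtain ⟨p, hp, hpx⟩ := hx
  let φ : ↥R →+* ↥R' := (G.comp R.subtype).codRestrict R' fun r => h r r.2
  refine ⟨p.map φ, hp.map φ, ?_⟩
  have hcomp : (algebraMap ↥R' Ω).comp φ = G.comp (algebraMap ↥R Ω) := RingHom.ext fun _ => rfl
  rw [Polynomial.eval₂_map, hcomp, ← Polynomial.hom_eval₂, hpx, map_zero]

theorem map_mem_modelOf {R R' : Subring Ω} {F F' : Subfield Ω} (hR : ∀ r ∈ R, G r ∈ R')
    (hF : ∀ y ∈ F, G y ∈ F') {x : Ω} (hx : x ∈ modelOf R F) : G x ∈ modelOf R' F' :=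
  ⟨hF x hx.1, isIntegral_map_of_maps G hR hx.2⟩

theorem map_mem_locSub {C C' : Subring Ω} {n : Ideal ↥C} [n.IsPrime] {n' : Ideal ↥C'}
    [n'.IsPrime] (hC : ∀ y ∈ C, G y ∈ C')
    (hn : ∀ b : ↥C, b ∉ n → (⟨G (b : Ω), hC _ b.2⟩ : ↥C') ∉ n') {x : Ω}
    (hx : x ∈ locSub C n) : G x ∈ locSub C' n' := by
  obtain ⟨a, b, hb, hab⟩ := hx
  refine ⟨⟨G (a : Ω), hC _ a.2⟩, ⟨G (b : Ω), hC _ b.2⟩, hn b hb, ?_⟩
  have hab' : x * (b : Ω) = (a : Ω) := hab
  show G x * G (b : Ω) = G (a : Ω)
  rw [← map_mul, hab']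

end Endo

section Group

variable {Γ Ω : Type*} [Group Γ] [MulAction Γ Ω]

/-- a property of elements which is preserved by `g` and by `g⁻¹` is invariant -/
theorem smul_mem_iff_of_forall {s : Set Ω} (g : Γ) (h : ∀ y ∈ s, g • y ∈ s)
    (h' : ∀ y ∈ s, g⁻¹ • y ∈ s) (y : Ω) : g • y ∈ s ↔ y ∈ s :=
  ⟨fun hy => by simpa using h' _ hy, h y⟩

end Group

end Fermat.Agent.FF3.InertiaLevels
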