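/-
Programme I (S33, p-new half), contract D-B3 §4d, main-dialect half (helper29), part 3:
the inertia group acts on the finite levels of the tube of a crossing of `X₀(qM)` at `q`.

`B` a valuation ring of `ℚ̄` over `q ∤ M`, `σ` in the inertia group of `B`,
`g = gal (M q) σ` the coefficientwise action on `F̄_{Mq}`, `S` a level with `σ K₀(S) = K₀(S)`.

* `inertiaLike_gal`, `valuation_apply_eq`, `evalAt_gal_smul` (point law);
* `gal_smul_mem_FS_iff`, `gal_smul_mem_baseFin_iff`, `gal_smul_mem_CS_iff` : the function field,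
  the base ring `W_S[j]` and the normal model `C_S` of level `S` are stable;
* `compW_res_gal_smul₀`, `compW_res_gal_smul₁` : `g` acts trivially on the two reductions;
* `CrossingModel`: `gal_smul_mem_point_iff`, `gal_smul_mem_loc_iff` : the crossing point and its
  local ring `R_S` are stable (for ANY crossing model over `C_S`).
-/
import Mathlib
import Fermat.Agent.FF3.InertiaLevels.Stable
import Fermat.Agent.FF3.InertiaLevels.GalStable
import Fermat.Agent.BR.Inst.AnnulusInst
import Fermat.Agent.BR.GaloisTwo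
import Fermat.Agent.BR3.EquivHoriz

set_option autoImplicit false
set_option synthInstance.maxHeartbeats 400000
set_option linter.unusedSectionVars false

noncomputable section

namespace Fermat.Agent.FF3.InertiaLevels

open AlgebraicCurve ModularCurve IsLocalRing
open Fermat.Agent.Red Fermat.Agent.Val Fermat.Agent.X0 Fermat.Agent.Good.Bridge
open Fermat.Agent.BR Fermat.Agent.BR.Centre Fermat.Agent.BR.S0 Fermat.Agent.BR.S0.RedModular
open Fermat.Agent.BR.ConstRedTwo Fermat.Agent.BR.TwoVal Fermat.Agent.BR.TwoValInst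
open Fermat.Agent.BR.ValTwo Fermat.Agent.BR.Inst.Levels Fermat.Agent.BR.Inst.NormalModel
open Fermat.Agent.BR.Inst.ChartInModel Fermat.Agent.BR.Inst.LocSub
open Fermat.Agent.BR.Inst.AnnulusInst
open scoped Pointwise

local notation "Kb" => AlgebraicClosure ℚ

/-! ### the constants of the fraction field of a stable subring -/

section ConstField

variable {K F : Type*} [Field K] [Field F] [Algebra K F]

theorem apply_mem_constField (g : SemilinearAut K F) {R : Subring F}
    (hR : ∀ y ∈ R, g • y ∈ R) {c : K} (hc : c ∈ constField K R) :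
    SemilinearAut.baseAut g c ∈ constField K R := by
  rw [mem_constField_iff] at hc ⊢
  obtain ⟨a, b, hb, hab⟩ := hc
  refine ⟨⟨g • (a : F), hR _ a.2⟩, ⟨g • (b : F), hR _ b.2⟩, ?_, ?_⟩
  · intro h0
    apply hb
    apply Subtype.ext
    have h1 : g • (b : F) = 0 := congrArg (fun t : R => (t : F)) h0
    exact (smul_eq_zero_iff_eq g).mp h1
  · show algebraMap K F (SemilinearAut.baseAut g c) * (g • (b : F)) = g • (a : F)
    rw [← SemilinearAut.smul_algebraMap, ← smul_mul', hab]

theorem apply_mem_constField_iff (g : SemilinearAut K F) {R : Subring F}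
    (hR : ∀ y : F, g • y ∈ R ↔ y ∈ R) (c : K) :
    SemilinearAut.baseAut g c ∈ constField K R ↔ c ∈ constField K R := by
  refine ⟨fun h => ?_, fun h => apply_mem_constField g (fun y hy => (hR y).mpr hy) h⟩
  have h1 := apply_mem_constField g⁻¹ (R := R) (fun y hy => by
    rw [← hR, smul_inv_smul]
    exact hy) h
  rwa [SemilinearAut.baseAut_inv, RingEquiv.symm_apply_apply] at h1

end ConstField

/-! ### generalities on `gal N σ` -/

section Gal

variable (N : ℕ) [NeZero N] (σ : Kb ≃ₐ[ℚ] Kb)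

theorem gal_inv : (gal N σ)⁻¹ = gal N σ⁻¹ :=
  (map_inv (arithmeticGalois (modularFunctionFieldFull N)) σ).symm

theorem gal_smul_algebraMap (c : Kb) :
    gal N σ • algebraMap Kb (Fb N) c = algebraMap Kb (Fb N) (σ c) :=
  SemilinearAut.smul_algebraMap (gal N σ) c

/-- **the point law**: `(g y)(g P) = σ (y(P))` -/
theorem evalAt_gal_smul (P : Place Kb (Fb N)) (y : Fb N) :
    evalAt (gal N σ • P) (gal N σ • y) = σ (evalAt P y) :=
  Fermat.Agent.BR.AnnulusRed.evalAt_smul (gal N σ) P y

variable {σ}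

theorem GalStable.inv {q : ℕ} {S : Finset Kb} (hS : GalStable q σ S) : GalStable q σ⁻¹ S := by
  intro c
  have h := hS (σ⁻¹ c)
  have e : σ (σ⁻¹ c) = c := AlgEquiv.apply_symm_apply σ c
  rw [e] at h
  exact h.symm

/-- the function field of a Galois-stable level is stable -/
theorem gal_smul_mem_FS {q : ℕ} {S : Finset Kb} (hS : GalStable q σ S) {y : Fb N}
    (hy : y ∈ FS N q S) : gal N σ • y ∈ FS N q S := by
  refine map_mem_subfield_closure
    ((SemilinearAut.toRingAut (gal N σ) : Fb N ≃+* Fb N) : Fb N →+* Fb N) ?_ hy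
  rintro z (⟨c, hc, rfl⟩ | ⟨x, rfl⟩)
  · show gal N σ • algebraMap Kb (Fb N) c ∈ FS N q S
    rw [gal_smul_algebraMap]
    exact const_mem_FS N q ((hS c).mpr hc)
  · show gal N σ • barEmb N x ∈ FS N q S
    rw [Fermat.Agent.BR.Inst.gal_smul_barEmb σ x]
    exact barEmb_mem_modelField N (KS q S) x

theorem gal_smul_mem_FS_iff {q : ℕ} {S : Finset Kb} (hS : GalStable q σ S) (y : Fb N) :
    gal N σ • y ∈ FS N q S ↔ y ∈ FS N q S :=
  smul_mem_iff_of_forall (s := (FS N q S : Set (Fb N))) (gal N σ)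
    (fun _ hy => gal_smul_mem_FS N hS hy)
    (fun _ hy => by rw [gal_inv]; exact gal_smul_mem_FS N hS.inv hy) y

end Gal

/-! ### the models of the levels -/

section Models

variable {M q : ℕ} [NeZero M] [hq : Fact q.Prime]
variable (B : ValuationSubring Kb) (hB : B.LiesOverPrime q) (hqM : ¬ q ∣ M)
variable {σ : Kb ≃ₐ[ℚ] Kb}

/-- inertia is inertia-like -/
theorem inertiaLike_gal (N : ℕ) [NeZero N] (hσ : σ ∈ B.inertiaSubgroupIn ℚ) :
    InertiaLike B (gal N σ) :=
  inertiaLike_arithmeticGalois B hσ _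

/-- inertia preserves the valuation of the constants -/
theorem valuation_apply_eq (hσ : σ ∈ B.inertiaSubgroupIn ℚ) (c : Kb) :
    B.valuation (σ c) = B.valuation c :=
  (Fermat.Agent.BR3.EquivHoriz.isInertial_gal 1 B hσ).val c

theorem apply_mem_iff (hσ : σ ∈ B.inertiaSubgroupIn ℚ) (c : Kb) : σ c ∈ B ↔ c ∈ B :=
  (inertiaLike_gal B 1 hσ).mem_iff c

/-- the base ring `W_S[j]` of a Galois-stable level is stable -/
theorem gal_smul_mem_baseFin (hσ : σ ∈ B.inertiaSubgroupIn ℚ) {S : Finset Kb}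
    (hS : GalStable q σ S) {y : Fb (M * q)} (hy : y ∈ baseFin M q B S) :
    gal (M * q) σ • y ∈ baseFin M q B S := by
  refine map_mem_subring_closure
    ((SemilinearAut.toRingAut (gal (M * q) σ) : Fb (M * q) ≃+* Fb (M * q)) :
      Fb (M * q) →+* Fb (M * q)) ?_ hy
  rintro z (⟨c, hc, rfl⟩ | rfl)
  · show gal (M * q) σ • algebraMap Kb (Fb (M * q)) c ∈ baseFin M q B S
    rw [gal_smul_algebraMap]
    exact const_mem_modelBase (M * q) (WS B q S)
      (mem_WS_iff.mpr ⟨(apply_mem_iff B hσ c).mpr (mem_WS_iff.mp hc).1,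
        (hS c).mpr (mem_WS_iff.mp hc).2⟩)
  · show gal (M * q) σ • jBar (M * q) ∈ baseFin M q B S
    rw [← barEmb_jFull, Fermat.Agent.BR.Inst.gal_smul_barEmb σ, barEmb_jFull]
    exact jBar_mem_modelBase (M * q) (WS B q S)

/-- the normal model `C_S` of a Galois-stable level is stable -/
theorem gal_smul_mem_CS (hσ : σ ∈ B.inertiaSubgroupIn ℚ) {S : Finset Kb}
    (hS : GalStable q σ S) {y : Fb (M * q)} (hy : y ∈ CS (M * q) q (baseFin M q B) S) :
    gal (M * q) σ • y ∈ CS (M * q) q (baseFin M q B) S :=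
  map_mem_modelOf
    ((SemilinearAut.toRingAut (gal (M * q) σ) : Fb (M * q) ≃+* Fb (M * q)) :
      Fb (M * q) →+* Fb (M * q))
    (fun _ hr => gal_smul_mem_baseFin B hσ hS hr) (fun _ hy => gal_smul_mem_FS (M * q) hS hy) hy

theorem gal_smul_mem_CS_iff (hσ : σ ∈ B.inertiaSubgroupIn ℚ) {S : Finset Kb}
    (hS : GalStable q σ S) (y : Fb (M * q)) :
    gal (M * q) σ • y ∈ CS (M * q) q (baseFin M q B) S ↔ y ∈ CS (M * q) q (baseFin M q B) S :=
  smul_mem_iff_of_forall (s := (CS (M * q) q (baseFin M q B) S : Set (Fb (M * q))))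
    (gal (M * q) σ) (fun _ hy => gal_smul_mem_CS B hσ hS hy)
    (fun _ hy => by
      rw [gal_inv]
      exact gal_smul_mem_CS B (Subgroup.inv_mem _ hσ) hS.inv hy) y

/-! ### the two reductions -/

theorem gal_smul_mem_compW_zero_iff (hσ : σ ∈ B.inertiaSubgroupIn ℚ) (y : Fb (M * q)) :
    gal (M * q) σ • y ∈ (compW B hB hqM 0).O ↔ y ∈ (compW B hB hqM 0).O :=
  Fermat.Agent.BR.GaloisTwo.gal_smul_mem_O1_iff B hB (mem_decomposition_of_mem_inertiaIn hσ)

theorem gal_smul_mem_compW_one_iff (hσ : σ ∈ B.inertiaSubgroupIn ℚ) (y : Fb (M * q)) :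
    gal (M * q) σ • y ∈ (compW B hB hqM 1).O ↔ y ∈ (compW B hB hqM 1).O :=
  Fermat.Agent.BR.GaloisTwo.gal_smul_mem_O2_iff hqM B hB (mem_decomposition_of_mem_inertiaIn hσ)

/-- inertia acts trivially on the reduction to the first component -/
theorem compW_res_gal_smul₀ (hσ : σ ∈ B.inertiaSubgroupIn ℚ) (x : (compW B hB hqM 0).O) :
    (compW B hB hqM 0).res ⟨gal (M * q) σ • (x : Fb (M * q)),
        (gal_smul_mem_compW_zero_iff B hB hqM hσ _).mpr x.2⟩ = (compW B hB hqM 0).res x := by
  apply Subtype.ext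
  exact Fermat.Agent.BR.GaloisTwo.res1_gal_smul_of_mem_inertia B hB hσ x

/-- inertia acts trivially on the reduction to the second component -/
theorem compW_res_gal_smul₁ (hσ : σ ∈ B.inertiaSubgroupIn ℚ) (x : (compW B hB hqM 1).O) :
    (compW B hB hqM 1).res ⟨gal (M * q) σ • (x : Fb (M * q)),
        (gal_smul_mem_compW_one_iff B hB hqM hσ _).mpr x.2⟩ = (compW B hB hqM 1).res x := by
  apply Subtype.ext
  exact Fermat.Agent.BR.GaloisTwo.res2_gal_smul_of_mem_inertia hqM B hB hσ x

/-- the maximal ideals of the two components are stable -/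
theorem gal_smul_mem_nonunits_compW_iff (hσ : σ ∈ B.inertiaSubgroupIn ℚ) (v : Fin 2)
    (y : Fb (M * q)) :
    gal (M * q) σ • y ∈ (compW B hB hqM v).O.nonunits ↔ y ∈ (compW B hB hqM v).O.nonunits := by
  have hmem : ∀ z : Fb (M * q),
      gal (M * q) σ • z ∈ (compW B hB hqM v).O ↔ z ∈ (compW B hB hqM v).O := by
    intro z
    fin_cases v
    · exact gal_smul_mem_compW_zero_iff B hB hqM hσ z
    · exact gal_smul_mem_compW_one_iff B hB hqM hσ z
  have key : ∀ z : Fb (M * q), z ∈ (compW B hB hqM v).O.nonunits ↔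
      z ∈ (compW B hB hqM v).O ∧ (z = 0 ∨ z⁻¹ ∉ (compW B hB hqM v).O) := by
    intro z
    rw [ValuationSubring.mem_nonunits_iff, ← ValuationSubring.valuation_le_one_iff]
    rcases eq_or_ne z 0 with rfl | hz
    · simp
    · rw [← ValuationSubring.valuation_le_one_iff, map_inv₀,
        inv_le_one₀ (zero_lt_iff.mpr ((Valuation.ne_zero_iff _).mpr hz))]
      constructor
      · intro h
        exact ⟨h.le, Or.inr (not_le.mpr h)⟩
      · rintro ⟨h1, h2 | h2⟩
        · exact absurd h2 hz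
        · exact not_le.mp h2
  rw [key, key, hmem, smul_eq_zero_iff_eq, ← smul_inv'', hmem]

end Models

/-! ### the crossing point and its local ring -/

section Point

variable {M q : ℕ} [NeZero M] [hq : Fact q.Prime]
variable {B : ValuationSubring Kb} {hB : B.LiesOverPrime q} {hqM : ¬ q ∣ M}
variable {σ : Kb ≃ₐ[ℚ] Kb}
variable {Q₁ Q₂ : Place (ResidueField B) (modularFunctionFieldFullC (ResidueField B) M)}
  {T : Set (Place Kb (Fb (M * q)))} {S : Finset Kb} {ϖ : Kb}

/-- **the crossing point of the model of a Galois-stable level is stable** -/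
theorem gal_smul_mem_point_iff
    (Mo : CrossingModel B (residue B) (compW B hB hqM 0).O (compW B hB hqM 1).O
      (compW B hB hqM 0).res (compW B hB hqM 1).res Q₁ Q₂ T (CS (M * q) q (baseFin M q B) S) ϖ)
    (hσ : σ ∈ B.inertiaSubgroupIn ℚ) (hS : GalStable q σ S)
    (x : ↥(CS (M * q) q (baseFin M q B) S)) :
    (⟨gal (M * q) σ • (x : Fb (M * q)), gal_smul_mem_CS B hσ hS x.2⟩ :
      ↥(CS (M * q) q (baseFin M q B) S)) ∈ Mo.point ↔ x ∈ Mo.point := by
  rw [Mo.mem_point_iff, Mo.mem_point_iff]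
  have h := compW_res_gal_smul₀ B hB hqM hσ ⟨x, Mo.le₁ x x.2⟩
  constructor
  · intro hx
    rw [← h]
    exact hx
  · intro hx
    rw [← h] at hx
    exact hx

/-- the local ring `R_S` of the crossing point is stable, one direction -/
theorem gal_smul_mem_loc
    (Mo : CrossingModel B (residue B) (compW B hB hqM 0).O (compW B hB hqM 1).O
      (compW B hB hqM 0).res (compW B hB hqM 1).res Q₁ Q₂ T (CS (M * q) q (baseFin M q B) S) ϖ)
    (hσ : σ ∈ B.inertiaSubgroupIn ℚ) (hS : GalStable q σ S) {y : Fb (M * q)}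
    (hy : y ∈ Mo.loc) : gal (M * q) σ • y ∈ Mo.loc :=
  map_mem_locSub
    ((SemilinearAut.toRingAut (gal (M * q) σ) : Fb (M * q) ≃+* Fb (M * q)) :
      Fb (M * q) →+* Fb (M * q))
    (fun _ hz => gal_smul_mem_CS B hσ hS hz)
    (fun b hb h => hb ((gal_smul_mem_point_iff Mo hσ hS b).mp h)) hy

/-- **the local ring `R_S` of the crossing point at a Galois-stable level is stable** -/
theorem gal_smul_mem_loc_iff
    (Mo : CrossingModel B (residue B) (compW B hB hqM 0).O (compW B hB hqM 1).O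
      (compW B hB hqM 0).res (compW B hB hqM 1).res Q₁ Q₂ T (CS (M * q) q (baseFin M q B) S) ϖ)
    (hσ : σ ∈ B.inertiaSubgroupIn ℚ) (hS : GalStable q σ S) (y : Fb (M * q)) :
    gal (M * q) σ • y ∈ Mo.loc ↔ y ∈ Mo.loc :=
  smul_mem_iff_of_forall (s := (Mo.loc : Set (Fb (M * q)))) (gal (M * q) σ)
    (fun _ hy => gal_smul_mem_loc Mo hσ hS hy)
    (fun _ hy => by
      rw [gal_inv]
      exact gal_smul_mem_loc Mo (Subgroup.inv_mem _ hσ) hS.inv hy) y

end Point

end Fermat.Agent.FF3.InertiaLevels
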