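/-
Programme I (S33, p-new half), contract D-B3 §4d, main-dialect half (helper29), part 4 = API:
the inertia group acts on the level data `annulusLevels_modular_final B hB hqM hne e` of the tube
of a crossing `e` of `X₀(qM)` at `q` (`BR/Inst/AnnulusInstFinal`), over
`Final.setupFinal B hB hqM hne`.

`σ` in the inertia group of `B`, `g = gal (M q) σ`, `S` a level with `σ K₀(S) = K₀(S)`
(`GalStable q σ S`; such levels are cofinal: `exists_galStable`).  With
`L := annulusLevels_modular_final B hB hqM hne e`:

* `smul_mem_tube_iff` : `g T = T`;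
* `smul_mem_level_R_iff`, `smul_level_R` : `g R_S = R_S`; `levelAut : R_S ≃+* R_S`
  (`coe_levelAut`, `coe_levelAut_symm`, `levelAut_algebraMap`);
* `apply_mem_level_K'_iff` : `σ K'_S = K'_S`;
* `mem_level_p1_iff`, `mem_level_p2_iff` : `p1 = R_S ∩ 𝔪_{O(tgt e)}`, `p2 = R_S ∩ 𝔪_{O(src e)}`
  (by `Iff.rfl`); `levelAut_mem_p1_iff`, `levelAut_mem_p2_iff` : `g p1 = p1`, `g p2 = p2`;
* `smul_mem_setup_O_iff`, `smul_mem_nonunits_setup_O_iff` : both components are fixed;
  `setup_res_gal_smul` : with trivial action on their function fields;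
* the point law `evalAt_gal_smul`, `inertiaLike_gal`, `valuation_apply_eq` are in `Basic`.
NO statement `g u = u` is used or made.
-/
import Mathlib
import Fermat.Agent.FF3.InertiaLevels.Basic
import Fermat.Agent.BR.Inst.AnnulusInstFinal
import Fermat.Agent.BR.S0.GeomFinal

set_option autoImplicit false
set_option synthInstance.maxHeartbeats 400000
set_option linter.unusedSectionVars false

noncomputable section

namespace Fermat.Agent.FF3.InertiaLevels

open AlgebraicCurve ModularCurve IsLocalRing
open Fermat.Agent.Red Fermat.Agent.Val Fermat.Agent.X0 Fermat.Agent.Good.Bridge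
open Fermat.Agent.BR Fermat.Agent.BR.SS Fermat.Agent.BR.Refine
open Fermat.Agent.BR.Centre Fermat.Agent.BR.S0 Fermat.Agent.BR.S0.RedModular
open Fermat.Agent.BR.S0.PointDict Fermat.Agent.BR.S0.AnnulusChartOfLevels
open Fermat.Agent.BR.TwoVal Fermat.Agent.BR.TwoValInst
open Fermat.Agent.BR.ValTwo Fermat.Agent.BR.Inst.Levels Fermat.Agent.BR.Inst.AnnulusInstFinal
open scoped Pointwise

local notation "Kb" => AlgebraicClosure ℚ

variable {M q : ℕ} [NeZero M] [hq : Fact q.Prime]
variable (B : ValuationSubring Kb) (hB : B.LiesOverPrime q) (hqM : ¬ q ∣ M)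
variable [IsAlgClosed (ResidueField B)]
variable (hne : Nonempty (Crossing (chartDataModular B hB hqM)))
variable (e : Crossing (chartDataModular B hB hqM))
variable {σ : Kb ≃ₐ[ℚ] Kb}

/-! ### the tube -/

set_option maxHeartbeats 4000000 in
/-- the reduction map of the setup is invariant under inertia -/
theorem setup_r_gal_smul (hσ : σ ∈ B.inertiaSubgroupIn ℚ) (P : Place Kb (Fb (M * q))) :
    (Final.setupFinal B hB hqM hne).r (gal (M * q) σ • P) =
      (Final.setupFinal B hB hqM hne).r P :=
  S0.RedHyp.rModular_smul_of_inputs B hB hqM (S0.GeomFinal.geomInputs_modular_final B hB hqM) hσ P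

set_option maxHeartbeats 4000000 in
/-- **`g T = T`**: the tube of a crossing is stable under inertia. -/
theorem smul_mem_tube_iff (hσ : σ ∈ B.inertiaSubgroupIn ℚ) (P : Place Kb (Fb (M * q))) :
    gal (M * q) σ • P ∈ tube (Final.setupFinal B hB hqM hne) e ↔
      P ∈ tube (Final.setupFinal B hB hqM hne) e := by
  show (Final.setupFinal B hB hqM hne).r (gal (M * q) σ • P) = _ ↔
    (Final.setupFinal B hB hqM hne).r P = _
  rw [setup_r_gal_smul B hB hqM hne hσ P]

/-! ### the local rings of the levels -/

set_option maxHeartbeats 4000000 in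
/-- the local ring of level `S` is the local ring of the crossing model -/
theorem level_R_eq (S : Finset Kb) :
    ((annulusLevels_modular_final B hB hqM hne e).level S).R =
      (Inst.NodeInstFinal.crossingModel_modular_final B hB hqM
        (S0.RedHyp.atlasHyp_modular B hB hqM (S0.GeomFinal.geomInputs_modular_final B hB hqM))
        S e).loc := rfl

/-- **`g R_S = R_S`**, elementwise. -/
theorem smul_mem_level_R_iff (hσ : σ ∈ B.inertiaSubgroupIn ℚ) {S : Finset Kb}
    (hS : GalStable q σ S) (y : Fb (M * q)) :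
    gal (M * q) σ • y ∈ ((annulusLevels_modular_final B hB hqM hne e).level S).R ↔
      y ∈ ((annulusLevels_modular_final B hB hqM hne e).level S).R := by
  rw [level_R_eq]
  exact gal_smul_mem_loc_iff _ hσ hS y

/-- **`g R_S = R_S`**. -/
theorem smul_level_R (hσ : σ ∈ B.inertiaSubgroupIn ℚ) {S : Finset Kb}
    (hS : GalStable q σ S) :
    gal (M * q) σ • ((annulusLevels_modular_final B hB hqM hne e).level S).R =
      ((annulusLevels_modular_final B hB hqM hne e).level S).R := by
  ext y
  rw [Subring.mem_pointwise_smul_iff_inv_smul_mem, gal_inv]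
  exact smul_mem_level_R_iff B hB hqM hne e (Subgroup.inv_mem _ hσ) hS.inv y

/-- the automorphism of the local ring of a Galois-stable level induced by an inertia element -/
def levelAut (hσ : σ ∈ B.inertiaSubgroupIn ℚ) {S : Finset Kb} (hS : GalStable q σ S) :
    ((annulusLevels_modular_final B hB hqM hne e).level S).R ≃+*
      ((annulusLevels_modular_final B hB hqM hne e).level S).R where
  toFun y := ⟨gal (M * q) σ • (y : Fb (M * q)),
    (smul_mem_level_R_iff B hB hqM hne e hσ hS _).mpr y.2⟩
  invFun y := ⟨(gal (M * q) σ)⁻¹ • (y : Fb (M * q)), by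
    rw [← smul_mem_level_R_iff B hB hqM hne e hσ hS, smul_inv_smul]
    exact y.2⟩
  left_inv y := Subtype.ext (inv_smul_smul _ _)
  right_inv y := Subtype.ext (smul_inv_smul _ _)
  map_mul' x y := Subtype.ext (smul_mul' _ _ _)
  map_add' x y := Subtype.ext (smul_add _ _ _)

@[simp] theorem coe_levelAut (hσ : σ ∈ B.inertiaSubgroupIn ℚ) {S : Finset Kb}
    (hS : GalStable q σ S) (y : ((annulusLevels_modular_final B hB hqM hne e).level S).R) :
    ((levelAut B hB hqM hne e hσ hS y : ((annulusLevels_modular_final B hB hqM hne e).level S).R) :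
      Fb (M * q)) = gal (M * q) σ • (y : Fb (M * q)) := rfl

@[simp] theorem coe_levelAut_symm (hσ : σ ∈ B.inertiaSubgroupIn ℚ) {S : Finset Kb}
    (hS : GalStable q σ S) (y : ((annulusLevels_modular_final B hB hqM hne e).level S).R) :
    (((levelAut B hB hqM hne e hσ hS).symm y :
      ((annulusLevels_modular_final B hB hqM hne e).level S).R) : Fb (M * q)) =
      (gal (M * q) σ)⁻¹ • (y : Fb (M * q)) := rfl

/-- `levelAut` is `σ`-semilinear on the constants -/
theorem levelAut_algebraMap (hσ : σ ∈ B.inertiaSubgroupIn ℚ) {S : Finset Kb}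
    (hS : GalStable q σ S) {c : Kb}
    (hc : algebraMap Kb (Fb (M * q)) c ∈ ((annulusLevels_modular_final B hB hqM hne e).level S).R) :
    ((levelAut B hB hqM hne e hσ hS ⟨_, hc⟩ :
      ((annulusLevels_modular_final B hB hqM hne e).level S).R) : Fb (M * q)) =
      algebraMap Kb (Fb (M * q)) (σ c) :=
  gal_smul_algebraMap (M * q) σ c

/-! ### the constant fields of the levels -/

set_option maxHeartbeats 4000000 in
theorem level_K'_eq (S : Finset Kb) :
    ((annulusLevels_modular_final B hB hqM hne e).level S).K' =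
      constField Kb ((annulusLevels_modular_final B hB hqM hne e).level S).R := rfl

set_option maxHeartbeats 4000000 in
/-- **`σ K'_S = K'_S`**. -/
theorem apply_mem_level_K'_iff (hσ : σ ∈ B.inertiaSubgroupIn ℚ) {S : Finset Kb}
    (hS : GalStable q σ S) (c : Kb) :
    σ c ∈ ((annulusLevels_modular_final B hB hqM hne e).level S).K' ↔
      c ∈ ((annulusLevels_modular_final B hB hqM hne e).level S).K' := by
  rw [level_K'_eq]
  exact apply_mem_constField_iff (gal (M * q) σ)
    (fun y => smul_mem_level_R_iff B hB hqM hne e hσ hS y) c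

/-! ### the two vertical primes -/

set_option maxHeartbeats 4000000 in
/-- `p2 = R_S ∩ 𝔪_{O(src e)}` (`src e` = the component `0`, with valuation ring `O1`) -/
theorem mem_level_p2_iff (S : Finset Kb)
    (z : ((annulusLevels_modular_final B hB hqM hne e).level S).R) :
    z ∈ ((annulusLevels_modular_final B hB hqM hne e).level S).p2 ↔
      (z : Fb (M * q)) ∈ (compW B hB hqM 0).O.nonunits := Iff.rfl

set_option maxHeartbeats 4000000 in
/-- `p1 = R_S ∩ 𝔪_{O(tgt e)}` (`tgt e` = the component `1`, with valuation ring `O2`) -/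
theorem mem_level_p1_iff (S : Finset Kb)
    (z : ((annulusLevels_modular_final B hB hqM hne e).level S).R) :
    z ∈ ((annulusLevels_modular_final B hB hqM hne e).level S).p1 ↔
      (z : Fb (M * q)) ∈ (compW B hB hqM 1).O.nonunits := Iff.rfl

set_option maxHeartbeats 1600000 in
/-- **`g p2 = p2`** -/
theorem levelAut_mem_p2_iff (hσ : σ ∈ B.inertiaSubgroupIn ℚ) {S : Finset Kb}
    (hS : GalStable q σ S) (z : ((annulusLevels_modular_final B hB hqM hne e).level S).R) :
    levelAut B hB hqM hne e hσ hS z ∈ ((annulusLevels_modular_final B hB hqM hne e).level S).p2 ↔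
      z ∈ ((annulusLevels_modular_final B hB hqM hne e).level S).p2 := by
  refine (mem_level_p2_iff B hB hqM hne e S _).trans
    (Iff.trans ?_ (mem_level_p2_iff B hB hqM hne e S z).symm)
  exact gal_smul_mem_nonunits_compW_iff B hB hqM hσ 0 _

set_option maxHeartbeats 1600000 in
/-- **`g p1 = p1`** -/
theorem levelAut_mem_p1_iff (hσ : σ ∈ B.inertiaSubgroupIn ℚ) {S : Finset Kb}
    (hS : GalStable q σ S) (z : ((annulusLevels_modular_final B hB hqM hne e).level S).R) :
    levelAut B hB hqM hne e hσ hS z ∈ ((annulusLevels_modular_final B hB hqM hne e).level S).p1 ↔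
      z ∈ ((annulusLevels_modular_final B hB hqM hne e).level S).p1 := by
  refine (mem_level_p1_iff B hB hqM hne e S _).trans
    (Iff.trans ?_ (mem_level_p1_iff B hB hqM hne e S z).symm)
  exact gal_smul_mem_nonunits_compW_iff B hB hqM hσ 1 _

/-! ### the two components -/

theorem setup_O_eq (v : Fin 2) :
    (Final.setupFinal B hB hqM hne).O v = (compW B hB hqM v).O := rfl

theorem setup_src_eq : (Final.setupFinal B hB hqM hne).src e = 0 := rfl

theorem setup_tgt_eq : (Final.setupFinal B hB hqM hne).tgt e = 1 := rfl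

/-- **both components are fixed**: their valuation rings are stable -/
theorem smul_mem_setup_O_iff (hσ : σ ∈ B.inertiaSubgroupIn ℚ) (v : Fin 2) (y : Fb (M * q)) :
    gal (M * q) σ • y ∈ (Final.setupFinal B hB hqM hne).O v ↔
      y ∈ (Final.setupFinal B hB hqM hne).O v := by
  rw [setup_O_eq]
  fin_cases v
  · exact gal_smul_mem_compW_zero_iff B hB hqM hσ y
  · exact gal_smul_mem_compW_one_iff B hB hqM hσ y

/-- **both components are fixed**: their maximal ideals are stable -/
theorem smul_mem_nonunits_setup_O_iff (hσ : σ ∈ B.inertiaSubgroupIn ℚ) (v : Fin 2)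
    (y : Fb (M * q)) :
    gal (M * q) σ • y ∈ ((Final.setupFinal B hB hqM hne).O v).nonunits ↔
      y ∈ ((Final.setupFinal B hB hqM hne).O v).nonunits := by
  rw [setup_O_eq]
  exact gal_smul_mem_nonunits_compW_iff B hB hqM hσ v y

end Fermat.Agent.FF3.InertiaLevels
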