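/-
Programme I (S33, p-new half), node T4 (FRAME + INERTIA), main-dialect half (helper29), part 5:
a semilinear automorphism acting on ONE LEVEL of the tube of a node is a morphism of the expansion
data of that level (`Expand.ExpData.Mor`, helper5's (X3)), hence induces the twist of the target.

`L : S0.AnnulusLevels A T ι`, `i : ι`, `g : SemilinearAut K F` with base automorphism `s`.

* `LevelAction L i g` : `s A = A`, `s K'_i = K'_i`, `g R_i = R_i`, `g T = T`
  (for the modular tower: `InertiaLevels.levelAction_modular`, file `TwistModular`);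
* `LevelAction.constAut : A ∩ K'_i ≃+* A ∩ K'_i`, `LevelAction.ringAut : R_i ≃+* R_i`,
  `LevelAction.perm : T → T` (`= g⁻¹`), with `ringAut_constHom` (semilinearity),
  `evK_ringAut` (point law), `ringAut_mem_span_gens` (`g 𝔪 = 𝔪`; NO hypothesis `g u = u`);
* `LevelAction.mor : ExpData.Mor D D` for `D = ExpandBR.nodeExpData L i j hj Tg hfull hcol`, from
  an isometric `σΩ : Ω →+* Ω` with `σΩ ∘ j = j ∘ s`;
* `LevelAction.nodeTwist := mor.transfer : B →+* B` with `nodeTwist_nodeExpand`
  (`twist (expand y) = expand (g y)`), `nodeTwist_c`, `evB_nodeTwist`.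
-/
import Mathlib
import Fermat.Agent.FF3.ExpandBR.Frame
import Fermat.Agent.FF3.Expand.Equivariance
import Fermat.Agent.BR.AnnulusRed

set_option autoImplicit false

noncomputable section

namespace Fermat.Agent.FF3.InertiaLevels

open AlgebraicCurve IsLocalRing Fermat.Agent.Red Fermat.Agent.BR.Centre Fermat.Agent.BR.S0
open Fermat.Agent.FF3.ExpandBR Fermat.Agent.FF3.Expand

variable {K F : Type*} [Field K] [Field F] [Algebra K F]
  {A : ValuationSubring K} {T : Set (Place K F)} {ι : Type*}

/-- A semilinear automorphism acting on the level `i` of the tube of a node: its base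
automorphism preserves `A` and the constant field of the level, and it preserves the local ring
of the level and the tube. -/
structure LevelAction (L : AnnulusLevels A T ι) (i : ι) (g : SemilinearAut K F) : Prop where
  memA : ∀ c : K, SemilinearAut.baseAut g c ∈ A ↔ c ∈ A
  memK' : ∀ c : K, SemilinearAut.baseAut g c ∈ (L.level i).K' ↔ c ∈ (L.level i).K'
  memR : ∀ y : F, g • y ∈ (L.level i).R ↔ y ∈ (L.level i).R
  memT : ∀ P : Place K F, g • P ∈ T ↔ P ∈ T

namespace LevelAction

variable {L : AnnulusLevels A T ι} {i : ι} {g : SemilinearAut K F} (h : LevelAction L i g)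

include h in
/-- the inverse acts on the level -/
theorem inv : LevelAction L i g⁻¹ where
  memA c := by
    have := h.memA ((SemilinearAut.baseAut g).symm c)
    rw [RingEquiv.apply_symm_apply] at this
    rw [SemilinearAut.baseAut_inv]
    exact this.symm
  memK' c := by
    have := h.memK' ((SemilinearAut.baseAut g).symm c)
    rw [RingEquiv.apply_symm_apply] at this
    rw [SemilinearAut.baseAut_inv]
    exact this.symm
  memR y := by
    have := h.memR (g⁻¹ • y)
    rw [smul_inv_smul] at this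
    exact this.symm
  memT P := by
    have := h.memT (g⁻¹ • P)
    rw [smul_inv_smul] at this
    exact this.symm

/-! ### the three actions -/

/-- the action on the constants `A ∩ K'_i` of the level -/
def constAut : levelConst L i ≃+* levelConst L i where
  toFun c := ⟨SemilinearAut.baseAut g (c : K), (mem_levelConst L i).mpr
    ⟨(h.memA _).mpr ((mem_levelConst L i).mp c.2).1,
      (h.memK' _).mpr ((mem_levelConst L i).mp c.2).2⟩⟩
  invFun c := ⟨(SemilinearAut.baseAut g).symm (c : K), (mem_levelConst L i).mpr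
    ⟨by
      rw [← h.memA, RingEquiv.apply_symm_apply]
      exact ((mem_levelConst L i).mp c.2).1, by
      rw [← h.memK', RingEquiv.apply_symm_apply]
      exact ((mem_levelConst L i).mp c.2).2⟩⟩
  left_inv c := Subtype.ext (RingEquiv.symm_apply_apply _ _)
  right_inv c := Subtype.ext (RingEquiv.apply_symm_apply _ _)
  map_mul' a b := Subtype.ext (map_mul _ _ _)
  map_add' a b := Subtype.ext (map_add _ _ _)

@[simp] theorem coe_constAut (c : levelConst L i) :
    ((h.constAut c : levelConst L i) : K) = SemilinearAut.baseAut g (c : K) := rfl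

/-- the action on the functions of the level -/
def ringAut : (L.level i).R ≃+* (L.level i).R where
  toFun y := ⟨g • (y : F), (h.memR _).mpr y.2⟩
  invFun y := ⟨g⁻¹ • (y : F), by
    rw [← h.memR, smul_inv_smul]
    exact y.2⟩
  left_inv y := Subtype.ext (inv_smul_smul _ _)
  right_inv y := Subtype.ext (smul_inv_smul _ _)
  map_mul' x y := Subtype.ext (smul_mul' _ _ _)
  map_add' x y := Subtype.ext (smul_add _ _ _)

@[simp] theorem coe_ringAut (y : (L.level i).R) :
    ((h.ringAut y : (L.level i).R) : F) = g • (y : F) := rfl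

@[simp] theorem coe_ringAut_symm (y : (L.level i).R) :
    ((h.ringAut.symm y : (L.level i).R) : F) = g⁻¹ • (y : F) := rfl

/-- the action on the places of the tube, read backwards: `perm P = g⁻¹ • P` -/
def perm (P : T) : T := ⟨g⁻¹ • (P : Place K F), by
  rw [← h.memT, smul_inv_smul]
  exact P.2⟩

@[simp] theorem coe_perm (P : T) : ((h.perm P : T) : Place K F) = g⁻¹ • (P : Place K F) := rfl

theorem smul_perm (P : T) : g • ((h.perm P : T) : Place K F) = (P : Place K F) :=
  smul_inv_smul _ _

/-! ### the laws -/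

/-- **semilinearity** -/
theorem ringAut_constHom (c : levelConst L i) :
    h.ringAut (constHom L i c) = constHom L i (h.constAut c) :=
  Subtype.ext (SemilinearAut.smul_algebraMap g (c : K))

/-- **the point law** `(g y)(Q) = s (y (g⁻¹ Q))` -/
theorem evK_ringAut (Q : T) (y : (L.level i).R) :
    evK (L := L) (i := i) Q.2 (h.ringAut y) =
      SemilinearAut.baseAut g (evK (L := L) (i := i) (h.perm Q).2 y) := by
  show evalAt (Q : Place K F) (g • (y : F)) =
    SemilinearAut.baseAut g (evalAt (g⁻¹ • (Q : Place K F)) (y : F))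
  rw [← Fermat.Agent.BR.AnnulusRed.evalAt_smul g, smul_inv_smul]

/-- **`g 𝔪 = 𝔪`** (no hypothesis on `g u`) -/
theorem ringAut_mem_span_gens {y : (L.level i).R} (hy : y ∈ Ideal.span (gens L i)) :
    h.ringAut y ∈ Ideal.span (gens L i) := by
  rw [mem_span_gens_iff] at hy ⊢
  intro hu
  apply hy
  have := hu.map h.ringAut.symm
  rwa [RingEquiv.symm_apply_apply] at this

/-! ### the morphism of expansion data -/

variable {Ω : Type*} [NormedField Ω] (j : K →+* Ω) (hj : ∀ c : K, ‖j c‖ ≤ 1 ↔ c ∈ A)
  {B : Type*} [CommRing B]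
  (Tg : Expand.NodeTargetEv (levelConst L i) (unifW L i) (thickW L i) Ω (constΩ L i j) B)
  (hfull : LevelFullRes L i) (hcol : DenseNearOne j)

/-- **The morphism of the expansion data of the level** defined by `g`, for an isometric ring
endomorphism `σΩ` of `Ω` extending the base automorphism of `g`. -/
def mor (σΩ : Ω →+* Ω) (hnorm : ∀ x, ‖σΩ x‖ = ‖x‖)
    (hσj : ∀ c : K, σΩ (j c) = j (SemilinearAut.baseAut g c)) :
    ExpData.Mor (nodeExpData L i j hj Tg hfull hcol) (nodeExpData L i j hj Tg hfull hcol) where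
  σW := (h.constAut : levelConst L i →+* levelConst L i)
  g := (h.ringAut : (L.level i).R →+* (L.level i).R)
  σΩ := σΩ
  perm := h.perm
  norm_σΩ := hnorm
  g_ι := fun a => h.ringAut_constHom a
  ev_g := fun Q y => by
    show j (evK (L := L) (i := i) Q.2 (h.ringAut y)) =
      σΩ (j (evK (L := L) (i := i) (h.perm Q).2 y))
    rw [h.evK_ringAut, hσj]
  g_unif := h.ringAut_mem_span_gens (Ideal.subset_span (Set.mem_insert _ _))
  g_x := fun s => h.ringAut_mem_span_gens
    (Ideal.subset_span (Set.mem_insert_of_mem _ (Set.mem_range_self s)))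

variable [IsUltrametricDist Ω] (σΩ : Ω →+* Ω) (hnorm : ∀ x, ‖σΩ x‖ = ‖x‖)
  (hσj : ∀ c : K, σΩ (j c) = j (SemilinearAut.baseAut g c))
  (hresB : ∀ b : B, ∃ a : levelConst L i,
    b - (nodeExpData L i j hj Tg hfull hcol).c a ∈ (nodeExpData L i j hj Tg hfull hcol).mB)

/-- **The twist of the target ring** by `g`. -/
def nodeTwist : B →+* B := (h.mor j hj Tg hfull hcol σΩ hnorm hσj).transfer hresB

/-- **Equivariance of the expansion at the node**: `twist (expand y) = expand (g y)`. -/
theorem nodeTwist_nodeExpand (y : (L.level i).R) :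
    h.nodeTwist j hj Tg hfull hcol σΩ hnorm hσj hresB (nodeExpand L i j hj Tg hfull hcol y) =
      nodeExpand L i j hj Tg hfull hcol (h.ringAut y) :=
  (h.mor j hj Tg hfull hcol σΩ hnorm hσj).transfer_expand hresB y

theorem nodeTwist_c (a : levelConst L i) :
    h.nodeTwist j hj Tg hfull hcol σΩ hnorm hσj hresB (Tg.c a) = Tg.c (h.constAut a) :=
  (h.mor j hj Tg hfull hcol σΩ hnorm hσj).transfer_c hresB a

/-- the values of the twist -/
theorem evB_nodeTwist (Q : T) (b : B) :
    evB L i j hj Tg Q (h.nodeTwist j hj Tg hfull hcol σΩ hnorm hσj hresB b) =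
      σΩ (evB L i j hj Tg (h.perm Q) b) :=
  (h.mor j hj Tg hfull hcol σΩ hnorm hσj).evB_transfer hresB Q b

/-- the twist is the only ring homomorphism with these values -/
theorem nodeTwist_unique (Tw : B →+* B)
    (hTw : ∀ (Q : T) (b : B), evB L i j hj Tg Q (Tw b) = σΩ (evB L i j hj Tg (h.perm Q) b)) :
    Tw = h.nodeTwist j hj Tg hfull hcol σΩ hnorm hσj hresB :=
  (h.mor j hj Tg hfull hcol σΩ hnorm hσj).transfer_unique hresB Tw hTw

/-! ### bijectivity: the twist by `g⁻¹` is the inverse -/

section Equiv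

variable (τΩ : Ω ≃+* Ω) (hτnorm : ∀ x, ‖τΩ x‖ = ‖x‖)
  (hτj : ∀ c : K, τΩ (j c) = j (SemilinearAut.baseAut g c))

omit [IsUltrametricDist Ω] in
include hτnorm in
theorem norm_symm_apply (x : Ω) : ‖τΩ.symm x‖ = ‖x‖ := by
  have := hτnorm (τΩ.symm x)
  rw [RingEquiv.apply_symm_apply] at this
  exact this.symm

omit [IsUltrametricDist Ω] in
include hτj in
theorem symm_apply_j (c : K) : τΩ.symm (j c) = j (SemilinearAut.baseAut g⁻¹ c) := by
  rw [RingEquiv.symm_apply_eq, hτj, SemilinearAut.baseAut_inv, RingEquiv.apply_symm_apply]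

/-- the twist by `g⁻¹` after the twist by `g` is the identity -/
theorem nodeTwist_inv_nodeTwist (b : B) :
    h.inv.nodeTwist j hj Tg hfull hcol (τΩ.symm : Ω →+* Ω) (norm_symm_apply τΩ hτnorm)
        (symm_apply_j j τΩ hτj) hresB
      (h.nodeTwist j hj Tg hfull hcol (τΩ : Ω →+* Ω) hτnorm hτj hresB b) = b := by
  refine ExpData.eq_of_evB_eq (nodeExpData L i j hj Tg hfull hcol) fun Q => ?_
  show evB L i j hj Tg Q _ = evB L i j hj Tg Q b
  have hQ : h.perm (h.inv.perm Q) = Q := Subtype.ext (by
    show g⁻¹ • (g⁻¹⁻¹ • (Q : Place K F)) = (Q : Place K F)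
    rw [inv_inv, inv_smul_smul])
  have e1 := h.inv.evB_nodeTwist j hj Tg hfull hcol (τΩ.symm : Ω →+* Ω)
    (norm_symm_apply τΩ hτnorm) (symm_apply_j j τΩ hτj) hresB Q
    (h.nodeTwist j hj Tg hfull hcol (τΩ : Ω →+* Ω) hτnorm hτj hresB b)
  have e2 := h.evB_nodeTwist j hj Tg hfull hcol (τΩ : Ω →+* Ω) hτnorm hτj hresB
    (h.inv.perm Q) b
  rw [hQ] at e2
  refine e1.trans ?_
  rw [e2]
  exact RingEquiv.symm_apply_apply τΩ _

/-- the twist by `g` after the twist by `g⁻¹` is the identity -/
theorem nodeTwist_nodeTwist_inv (b : B) :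
    h.nodeTwist j hj Tg hfull hcol (τΩ : Ω →+* Ω) hτnorm hτj hresB
      (h.inv.nodeTwist j hj Tg hfull hcol (τΩ.symm : Ω →+* Ω) (norm_symm_apply τΩ hτnorm)
        (symm_apply_j j τΩ hτj) hresB b) = b := by
  refine ExpData.eq_of_evB_eq (nodeExpData L i j hj Tg hfull hcol) fun Q => ?_
  show evB L i j hj Tg Q _ = evB L i j hj Tg Q b
  have hQ : h.inv.perm (h.perm Q) = Q := Subtype.ext (by
    show g⁻¹⁻¹ • (g⁻¹ • (Q : Place K F)) = (Q : Place K F)
    rw [inv_inv, smul_inv_smul])
  have e1 := h.evB_nodeTwist j hj Tg hfull hcol (τΩ : Ω →+* Ω) hτnorm hτj hresB Q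
    (h.inv.nodeTwist j hj Tg hfull hcol (τΩ.symm : Ω →+* Ω) (norm_symm_apply τΩ hτnorm)
      (symm_apply_j j τΩ hτj) hresB b)
  have e2 := h.inv.evB_nodeTwist j hj Tg hfull hcol (τΩ.symm : Ω →+* Ω)
    (norm_symm_apply τΩ hτnorm) (symm_apply_j j τΩ hτj) hresB (h.perm Q) b
  rw [hQ] at e2
  refine e1.trans ?_
  rw [e2]
  exact RingEquiv.apply_symm_apply τΩ _

/-- **The twist of the target ring by `g`, as a ring automorphism.** -/
def nodeTwistEquiv : B ≃+* B :=
  RingEquiv.ofRingHom (h.nodeTwist j hj Tg hfull hcol (τΩ : Ω →+* Ω) hτnorm hτj hresB)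
    (h.inv.nodeTwist j hj Tg hfull hcol (τΩ.symm : Ω →+* Ω) (norm_symm_apply τΩ hτnorm)
      (symm_apply_j j τΩ hτj) hresB)
    (RingHom.ext fun b => h.nodeTwist_nodeTwist_inv j hj Tg hfull hcol hresB τΩ hτnorm hτj b)
    (RingHom.ext fun b => h.nodeTwist_inv_nodeTwist j hj Tg hfull hcol hresB τΩ hτnorm hτj b)

@[simp] theorem nodeTwistEquiv_apply (b : B) :
    h.nodeTwistEquiv j hj Tg hfull hcol hresB τΩ hτnorm hτj b =
      h.nodeTwist j hj Tg hfull hcol (τΩ : Ω →+* Ω) hτnorm hτj hresB b := rfl

end Equiv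

end LevelAction

end Fermat.Agent.FF3.InertiaLevels
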