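/-
PROGRAMME I (S33, p-new half), node T4 (FRAME + INERTIA), instance at the concrete target
(helper29).

`L : AnnulusLevels A T ι`, one level `i`, a semilinear automorphism `g` acting on the level
(`h : LevelAction L i g`, `FF3/InertiaLevels/Twist`), `(Ω, j, hj)` complete, and an isometric ring
endomorphism `σΩ` of `Ω` extending the base automorphism of `g`.  The target of the expansion is
helper20's `levelTarget L i j hj`, i.e. helper10's integral node ring `NodeInt π₁` over the completed
constant field `K₁ = constK₁ L i j` of the level.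

* `constK₁Hom : K₁ →+* K₁` : the restriction of `σΩ` (isometric; on the constants of the level it
  is `h.constAut`);
* `levelTwist : NodeInt π₁ →+* NodeInt π₁` : the twist (`LevelAction.nodeTwist` at the concrete
  target), `levelTwist_levelExpand` (equivariance), `evB_levelTwist`;
* `levelTwist_cInt` : `levelTwist (cInt a) = cInt (σ a)` for EVERY integral constant `a` of `K₁`
  = hypothesis `hc` of helper5's `NodeBdry.NodeAut`;
* with `Xb : BranchData S₀ e L` and `g` preserving the non-units of the valuation rings of the two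
  components through the node: `norm_toX_levelTwist_X`, `norm_toY_levelTwist_Y`
  = hypotheses `hX`, `hY` of `NodeBdry.NodeAut`;
* `levelSigmaR`, `levelSigmaB1`, `levelSigmaB2` : the resulting action on the gluing diagram
  `BAmice K₁ ⟵ NodeB π₁ ⟶ BAmice K₁`, with the squares `ha1`, `ha2`, `hcR` of `Glue.NodeHom`.
-/
import Mathlib
import Fermat.Agent.FF3.InertiaLevels.Twist
import Fermat.Agent.FF3.ExpandBR.Concrete
import Fermat.Agent.FF3.NodeBdry.NodeAut

set_option autoImplicit false
set_option linter.unusedSectionVars false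

noncomputable section

namespace Fermat.Agent.FF3.InertiaLevels

open AlgebraicCurve IsLocalRing Fermat.Agent.Red Fermat.Agent.BR.Centre Fermat.Agent.BR.SS
  Fermat.Agent.BR.Refine Fermat.Agent.BR.S0 Fermat.Agent.BR.S0.AnnulusChartOfLevels
open Fermat.Agent.FF3 Fermat.Agent.FF3.ExpandBR Fermat.Agent.FF3.Expand Fermat.Agent.FF3.Amice
  Fermat.Agent.FF3.NodeRing

attribute [local instance] normedAlgebraSubfield

namespace LevelAction

section Level

variable {K F : Type*} [Field K] [Field F] [Algebra K F]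
  {A : ValuationSubring K} {T : Set (Place K F)} {ι : Type*}
  {L : AnnulusLevels A T ι} {i : ι} {g : SemilinearAut K F} (h : LevelAction L i g)
  {Ω : Type*} [NormedField Ω] [IsUltrametricDist Ω] [CompleteSpace Ω]
  (j : K →+* Ω) (hj : ∀ c : K, ‖j c‖ ≤ 1 ↔ c ∈ A)
  (σΩ : Ω →+* Ω) (hnorm : ∀ x, ‖σΩ x‖ = ‖x‖)
  (hσj : ∀ c : K, σΩ (j c) = j (SemilinearAut.baseAut g c))

/-! ### the action on the completed constants -/

include h hσj in
theorem sigma_mem_constField {x : Ω} (hx : x ∈ constField L i j) : σΩ x ∈ constField L i j := by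
  obtain ⟨c, hc, rfl⟩ := (mem_constField L i j).mp hx
  rw [hσj]
  exact ExpandBR.map_mem_constField L i j ((h.memK' c).mpr hc)

include hnorm in
theorem continuous_of_norm : Continuous σΩ := by
  refine (AddMonoidHomClass.isometry_of_norm σΩ hnorm).continuous

include h hσj hnorm in
theorem sigma_mem_constK₁ {x : Ω} (hx : x ∈ constK₁ L i j) : σΩ x ∈ constK₁ L i j := by
  have hx' : x ∈ closure (constField L i j : Set Ω) := hx
  exact map_mem_closure (continuous_of_norm σΩ hnorm) hx'
    (fun y hy => h.sigma_mem_constField j σΩ hσj hy)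

/-- **The action on the completed constant field of the level**: the restriction of `σΩ`. -/
def constK₁Hom : constK₁ L i j →+* constK₁ L i j :=
  (σΩ.comp (constK₁ L i j).subtype).codRestrict (constK₁ L i j)
    (fun x => h.sigma_mem_constK₁ j σΩ hnorm hσj x.2)

@[simp] theorem coe_constK₁Hom (x : constK₁ L i j) :
    ((h.constK₁Hom j σΩ hnorm hσj x : constK₁ L i j) : Ω) = σΩ (x : Ω) := rfl

theorem norm_constK₁Hom (x : constK₁ L i j) : ‖h.constK₁Hom j σΩ hnorm hσj x‖ = ‖x‖ :=
  hnorm (x : Ω)

/-- on the constants of the level the action is `constAut` -/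
theorem constK₁Hom_constToK₁ (a : levelConst L i) :
    h.constK₁Hom j σΩ hnorm hσj (constToK₁ L i j a) = constToK₁ L i j (h.constAut a) :=
  Subtype.ext (hσj (a : K))

/-! ### the twist at the concrete target -/

variable (hfull : LevelFullRes L i) (hcol : DenseNearOne j)

include hj in
/-- the residue condition of the concrete target, in the form consumed by `nodeTwist` -/
theorem levelTarget_hresB' (b : NodeInt (thickK₁ L i j)) :
    ∃ a : levelConst L i,
      b - (nodeExpData L i j hj (levelTarget L i j hj) hfull hcol).c a ∈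
        (nodeExpData L i j hj (levelTarget L i j hj) hfull hcol).mB := by
  obtain ⟨w, hw⟩ := levelTarget_hresB L i j hj b
  refine ⟨w, ?_⟩
  have e : (nodeExpData L i j hj (levelTarget L i j hj) hfull hcol).mB =
      Ideal.span {(levelTarget L i j hj).c (unifW L i), (levelTarget L i j hj).X,
        (levelTarget L i j hj).Y} := by
    show Ideal.span (insert ((levelTarget L i j hj).c (unifW L i))
      (Set.range ![(levelTarget L i j hj).X, (levelTarget L i j hj).Y])) = _
    rw [range_vecPair]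
  rw [e]
  exact hw

/-- **The twist of the integral node ring of the level by `g`.** -/
def levelTwist : NodeInt (thickK₁ L i j) →+* NodeInt (thickK₁ L i j) :=
  h.nodeTwist j hj (levelTarget L i j hj) hfull hcol σΩ hnorm hσj
    (levelTarget_hresB' j hj hfull hcol)

/-- **Equivariance of the expansion**: `twist (expand y) = expand (g y)`. -/
theorem levelTwist_levelExpand (y : (L.level i).R) :
    h.levelTwist j hj σΩ hnorm hσj hfull hcol (levelExpand L i j hj hfull hcol y) =
      levelExpand L i j hj hfull hcol (h.ringAut y) :=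
  h.nodeTwist_nodeExpand j hj (levelTarget L i j hj) hfull hcol σΩ hnorm hσj _ y

/-- the values of the twist -/
theorem evB_levelTwist (Q : T) (b : NodeInt (thickK₁ L i j)) :
    evB L i j hj (levelTarget L i j hj) Q (h.levelTwist j hj σΩ hnorm hσj hfull hcol b) =
      σΩ (evB L i j hj (levelTarget L i j hj) (h.perm Q) b) :=
  h.evB_nodeTwist j hj (levelTarget L i j hj) hfull hcol σΩ hnorm hσj _ Q b

/-- the twist is the only ring endomorphism with these values -/
theorem levelTwist_unique (Tw : NodeInt (thickK₁ L i j) →+* NodeInt (thickK₁ L i j))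
    (hTw : ∀ (Q : T) (b : NodeInt (thickK₁ L i j)),
      evB L i j hj (levelTarget L i j hj) Q (Tw b) =
        σΩ (evB L i j hj (levelTarget L i j hj) (h.perm Q) b)) :
    Tw = h.levelTwist j hj σΩ hnorm hσj hfull hcol :=
  h.nodeTwist_unique j hj (levelTarget L i j hj) hfull hcol σΩ hnorm hσj _ Tw hTw

include hj in
/-- the value of an integral constant of the completed constant field -/
theorem evB_cInt (Q : T) (a : constK₁ L i j) (ha : ‖a‖ ≤ 1) :
    evB L i j hj (levelTarget L i j hj) Q (cInt a ha) = (a : Ω) := by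
  show (levelTarget L i j hj).evalAt _ _ _ (cInt a ha) = _
  rw [levelTarget_evalAt, coe_cInt, AlgHom.commutes, ← NodeEval.NodeModel.single_zero_eq_algebraMap]
  have e : NodeEval.term (pointVal L i j Q) (BAmice.single 0 a) =
      fun n : ℤ => if n = 0 then algebraMap (constK₁ L i j) Ω a * (pointVal L i j Q) ^ (0 : ℤ)
        else 0 :=
    funext fun n => NodeEval.term_single _ 0 n a
  rw [e, tsum_ite_eq, zpow_zero, mul_one]
  rfl

/-- **(hc)**: the twist acts on EVERY integral constant of the completed constant field through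
`σΩ`. -/
theorem levelTwist_cInt (a : constK₁ L i j) (ha : ‖a‖ ≤ 1) :
    h.levelTwist j hj σΩ hnorm hσj hfull hcol (cInt a ha) =
      cInt (h.constK₁Hom j σΩ hnorm hσj a)
        ((h.norm_constK₁Hom j σΩ hnorm hσj a).le.trans ha) := by
  refine ExpData.eq_of_evB_eq (nodeExpData L i j hj (levelTarget L i j hj) hfull hcol) fun Q => ?_
  show evB L i j hj (levelTarget L i j hj) Q _ = evB L i j hj (levelTarget L i j hj) Q _
  rw [h.evB_levelTwist, evB_cInt j hj, evB_cInt j hj]
  rfl

end Level

/-! ### the two vertical primes are preserved -/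

section Branch

variable {K : Type} {F : Type*} [Field K] [Field F] [Algebra K F]
  {A : ValuationSubring K} [IsAlgClosed (ResidueField A)]
  {ι₀ : Type} {Ft₀ : ι₀ → Type} [∀ v, Field (Ft₀ v)] [∀ v, Algebra (ResidueField A) (Ft₀ v)]
  {ν₀ : Type} {S₀ : SemistableSetup (F := F) A (residue A) ι₀ Ft₀ ν₀} {e : ν₀} {ι : Type*}
  {L : AnnulusLevels A (tube S₀ e) ι} (Xb : BranchData S₀ e L) {i : ι}
  {g : SemilinearAut K F} (h : LevelAction L i g)
  {Ω : Type*} [NormedField Ω] [IsUltrametricDist Ω] [CompleteSpace Ω]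
  (j : K →+* Ω) (hj : ∀ c : K, ‖j c‖ ≤ 1 ↔ c ∈ A)
  (σΩ : Ω →+* Ω) (hnorm : ∀ x, ‖σΩ x‖ = ‖x‖)
  (hσj : ∀ c : K, σΩ (j c) = j (SemilinearAut.baseAut g c))
  (hfull : LevelFullRes L i) (hcol : DenseNearOne j)

include Xb in
/-- **(hX)**: the twist of `X` is a unit for the Gauss norm of the `X`-expansion (`g` preserves the
vertical prime of the component `src e`). -/
theorem norm_toX_levelTwist_X
    (hsrc : ∀ y : F, g • y ∈ (S₀.O (S₀.src e)).nonunits ↔ y ∈ (S₀.O (S₀.src e)).nonunits) :
    ‖toX ((h.levelTwist j hj σΩ hnorm hσj hfull hcol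
      (XInt (thickK₁_ne_zero L i j hj) (norm_thickK₁_lt_one L i j hj).le) :
        NodeInt (thickK₁ L i j)) : NodeB (thickK₁ L i j))‖ = 1 := by
  rw [← levelExpand_u L i j hj hfull hcol, h.levelTwist_levelExpand]
  refine le_antisymm (norm_toX_le_one _) (not_lt.mp fun hlt => ?_)
  rw [levelGaussX Xb i j hj hfull hcol] at hlt
  have h1 : ((uR L i : (L.level i).R) : F) ∈ (S₀.O (S₀.src e)).nonunits := (hsrc _).mp hlt
  rw [← levelGaussX Xb i j hj hfull hcol, levelExpand_u, coe_XInt,
    toX_X] at h1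
  rw [norm_coe_X] at h1
  exact lt_irrefl _ h1

include Xb in
/-- **(hY)**: the twist of `Y` is a unit for the Gauss norm of the `Y`-expansion (`g` preserves the
vertical prime of the component `tgt e`). -/
theorem norm_toY_levelTwist_Y
    (htgt : ∀ y : F, g • y ∈ (S₀.O (S₀.tgt e)).nonunits ↔ y ∈ (S₀.O (S₀.tgt e)).nonunits) :
    ‖toY ((h.levelTwist j hj σΩ hnorm hσj hfull hcol
      (YInt (thickK₁_ne_zero L i j hj) (norm_thickK₁_lt_one L i j hj).le) :
        NodeInt (thickK₁ L i j)) : NodeB (thickK₁ L i j))‖ = 1 := by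
  rw [← levelExpand_w L i j hj hfull hcol, h.levelTwist_levelExpand]
  refine le_antisymm (norm_toY_le_one _) (not_lt.mp fun hlt => ?_)
  rw [levelGaussY Xb i j hj hfull hcol] at hlt
  have h1 : ((wR L i : (L.level i).R) : F) ∈ (S₀.O (S₀.tgt e)).nonunits := (htgt _).mp hlt
  rw [← levelGaussY Xb i j hj hfull hcol, levelExpand_w, coe_YInt, toY_Y, norm_coe_X] at h1
  exact lt_irrefl _ h1

/-! ### the action on the gluing diagram of the node (helper5's `NodeBdry.NodeAut`) -/

variable (hsrc : ∀ y : F, g • y ∈ (S₀.O (S₀.src e)).nonunits ↔ y ∈ (S₀.O (S₀.src e)).nonunits)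
  (htgt : ∀ y : F, g • y ∈ (S₀.O (S₀.tgt e)).nonunits ↔ y ∈ (S₀.O (S₀.tgt e)).nonunits)

/-- **The action on the node algebra `NodeB π₁`** (field `σR` of `Glue.NodeHom`). -/
def levelSigmaR : NodeB (thickK₁ L i j) →+* NodeB (thickK₁ L i j) :=
  NodeBdry.sigmaR (isDiscreteNorm_unifK₁ L i j hj) (h.constK₁Hom j σΩ hnorm hσj)
    (h.norm_constK₁Hom j σΩ hnorm hσj) (h.levelTwist j hj σΩ hnorm hσj hfull hcol)
    (h.levelTwist_cInt j hj σΩ hnorm hσj hfull hcol)

/-- on the integral node ring it is the twist -/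
theorem levelSigmaR_coe (b : NodeInt (thickK₁ L i j)) :
    h.levelSigmaR j hj σΩ hnorm hσj hfull hcol (b : NodeB (thickK₁ L i j)) =
      (h.levelTwist j hj σΩ hnorm hσj hfull hcol b : NodeB (thickK₁ L i j)) :=
  NodeBdry.sigmaR_coe _ _ _ _ _ b

/-- **(hcR)** -/
theorem levelSigmaR_algebraMap (a : constK₁ L i j) :
    h.levelSigmaR j hj σΩ hnorm hσj hfull hcol (algebraMap _ (NodeB (thickK₁ L i j)) a) =
      algebraMap _ (NodeB (thickK₁ L i j)) (h.constK₁Hom j σΩ hnorm hσj a) :=
  NodeBdry.sigmaR_algebraMap _ _ _ _ _ a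

/-- **equivariance of the expansion in the node algebra** -/
theorem levelSigmaR_levelExpand (y : (L.level i).R) :
    h.levelSigmaR j hj σΩ hnorm hσj hfull hcol
        ((levelExpand L i j hj hfull hcol y : NodeInt (thickK₁ L i j)) : NodeB (thickK₁ L i j)) =
      ((levelExpand L i j hj hfull hcol (h.ringAut y) : NodeInt (thickK₁ L i j)) :
        NodeB (thickK₁ L i j)) := by
  rw [levelSigmaR_coe, h.levelTwist_levelExpand]

/-- **The action on the first boundary ring** (field `σB1` of `Glue.NodeHom`). -/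
def levelSigmaB1 : BAmice (constK₁ L i j) →+* BAmice (constK₁ L i j) :=
  NodeBdry.sigmaB1 (isDiscreteNorm_unifK₁ L i j hj) (thickK₁_ne_zero L i j hj)
    (norm_thickK₁_lt_one L i j hj) (h.constK₁Hom j σΩ hnorm hσj)
    (h.norm_constK₁Hom j σΩ hnorm hσj) (h.levelTwist j hj σΩ hnorm hσj hfull hcol)
    (h.levelTwist_cInt j hj σΩ hnorm hσj hfull hcol)
    (norm_toX_levelTwist_X Xb h j hj σΩ hnorm hσj hfull hcol hsrc)

/-- **The action on the second boundary ring** (field `σB2` of `Glue.NodeHom`). -/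
def levelSigmaB2 : BAmice (constK₁ L i j) →+* BAmice (constK₁ L i j) :=
  NodeBdry.sigmaB2 (isDiscreteNorm_unifK₁ L i j hj) (thickK₁_ne_zero L i j hj)
    (norm_thickK₁_lt_one L i j hj) (h.constK₁Hom j σΩ hnorm hσj)
    (h.norm_constK₁Hom j σΩ hnorm hσj) (h.levelTwist j hj σΩ hnorm hσj hfull hcol)
    (h.levelTwist_cInt j hj σΩ hnorm hσj hfull hcol)
    (norm_toY_levelTwist_Y Xb h j hj σΩ hnorm hσj hfull hcol htgt)

/-- **(ha1)** -/
theorem levelSigmaB1_toX (z : NodeB (thickK₁ L i j)) :
    levelSigmaB1 Xb h j hj σΩ hnorm hσj hfull hcol hsrc (toX z) =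
      toX (h.levelSigmaR j hj σΩ hnorm hσj hfull hcol z) :=
  NodeBdry.sigmaB1_toX _ _ _ _ _ _ _ _ z

/-- **(ha2)** -/
theorem levelSigmaB2_toY (z : NodeB (thickK₁ L i j)) :
    levelSigmaB2 Xb h j hj σΩ hnorm hσj hfull hcol htgt (toY z) =
      toY (h.levelSigmaR j hj σΩ hnorm hσj hfull hcol z) :=
  NodeBdry.sigmaB2_toY _ _ _ _ _ _ _ _ z

theorem norm_levelSigmaB1_le (x : BAmice (constK₁ L i j)) :
    ‖levelSigmaB1 Xb h j hj σΩ hnorm hσj hfull hcol hsrc x‖ ≤ ‖x‖ :=
  NodeBdry.norm_sigmaB1_le _ _ _ _ _ _ _ _ x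

theorem norm_levelSigmaB2_le (x : BAmice (constK₁ L i j)) :
    ‖levelSigmaB2 Xb h j hj σΩ hnorm hσj hfull hcol htgt x‖ ≤ ‖x‖ :=
  NodeBdry.norm_sigmaB2_le _ _ _ _ _ _ _ _ x

theorem continuous_levelSigmaB1 :
    Continuous (levelSigmaB1 Xb h j hj σΩ hnorm hσj hfull hcol hsrc) :=
  NodeBdry.continuous_sigmaB1 _ _ _ _ _ _ _ _

theorem continuous_levelSigmaB2 :
    Continuous (levelSigmaB2 Xb h j hj σΩ hnorm hσj hfull hcol htgt) :=
  NodeBdry.continuous_sigmaB2 _ _ _ _ _ _ _ _

theorem levelSigmaB1_algebraMap (a : constK₁ L i j) :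
    levelSigmaB1 Xb h j hj σΩ hnorm hσj hfull hcol hsrc (algebraMap _ _ a) =
      algebraMap _ _ (h.constK₁Hom j σΩ hnorm hσj a) :=
  NodeBdry.sigmaB1_algebraMap _ _ _ _ _ _ _ _ a

theorem levelSigmaB2_algebraMap (a : constK₁ L i j) :
    levelSigmaB2 Xb h j hj σΩ hnorm hσj hfull hcol htgt (algebraMap _ _ a) =
      algebraMap _ _ (h.constK₁Hom j σΩ hnorm hσj a) :=
  NodeBdry.sigmaB2_algebraMap _ _ _ _ _ _ _ _ a

/-- **equivariance of the `X`-expansion**: `σB1 (toX (expand y)) = toX (expand (g y))` — the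
square against the component map `b1` on the functions of the level. -/
theorem levelSigmaB1_toX_levelExpand (y : (L.level i).R) :
    levelSigmaB1 Xb h j hj σΩ hnorm hσj hfull hcol hsrc
        (toX ((levelExpand L i j hj hfull hcol y : NodeInt (thickK₁ L i j)) :
          NodeB (thickK₁ L i j))) =
      toX ((levelExpand L i j hj hfull hcol (h.ringAut y) : NodeInt (thickK₁ L i j)) :
        NodeB (thickK₁ L i j)) := by
  rw [levelSigmaB1_toX, levelSigmaR_levelExpand]

/-- **equivariance of the `Y`-expansion**. -/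
theorem levelSigmaB2_toY_levelExpand (y : (L.level i).R) :
    levelSigmaB2 Xb h j hj σΩ hnorm hσj hfull hcol htgt
        (toY ((levelExpand L i j hj hfull hcol y : NodeInt (thickK₁ L i j)) :
          NodeB (thickK₁ L i j))) =
      toY ((levelExpand L i j hj hfull hcol (h.ringAut y) : NodeInt (thickK₁ L i j)) :
        NodeB (thickK₁ L i j)) := by
  rw [levelSigmaB2_toY, levelSigmaR_levelExpand]

end Branch

end LevelAction

end Fermat.Agent.FF3.InertiaLevels
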