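/-
Programme I (S33, p-new half), node T4 (FRAME + INERTIA), main-dialect half (helper29), part 6:
the inertia group acts on every Galois-stable level of the tube of a crossing of `X₀(qM)` at `q`
in the sense of `InertiaLevels.LevelAction` — so `LevelAction.mor`, `LevelAction.nodeTwist`,
`LevelAction.nodeTwistEquiv` (file `Twist`) apply to
`L := annulusLevels_modular_final B hB hqM hne e`, `g := gal (M q) σ`.
-/
import Mathlib
import Fermat.Agent.FF3.InertiaLevels.Modular
import Fermat.Agent.FF3.InertiaLevels.Twist

set_option autoImplicit false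
set_option synthInstance.maxHeartbeats 400000
set_option linter.unusedSectionVars false

noncomputable section

namespace Fermat.Agent.FF3.InertiaLevels

open AlgebraicCurve ModularCurve IsLocalRing
open Fermat.Agent.Red Fermat.Agent.Val Fermat.Agent.X0
open Fermat.Agent.BR Fermat.Agent.BR.SS Fermat.Agent.BR.Refine
open Fermat.Agent.BR.Centre Fermat.Agent.BR.S0 Fermat.Agent.BR.S0.RedModular
open Fermat.Agent.BR.S0.PointDict
open Fermat.Agent.BR.ValTwo Fermat.Agent.BR.Inst.Levels Fermat.Agent.BR.Inst.AnnulusInstFinal

local notation "Kb" => AlgebraicClosure ℚ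

variable {M q : ℕ} [NeZero M] [hq : Fact q.Prime]
variable (B : ValuationSubring Kb) (hB : B.LiesOverPrime q) (hqM : ¬ q ∣ M)
variable [IsAlgClosed (ResidueField B)]
variable (hne : Nonempty (Crossing (chartDataModular B hB hqM)))
variable (e : Crossing (chartDataModular B hB hqM))
variable {σ : Kb ≃ₐ[ℚ] Kb}

/-- the base automorphism of `gal N σ` is `σ` -/
theorem baseAut_gal_apply (N : ℕ) [NeZero N] (σ : Kb ≃ₐ[ℚ] Kb) (c : Kb) :
    SemilinearAut.baseAut (gal N σ) c = σ c := rfl

/-- **An inertia element acts on every Galois-stable level of the tube of a crossing.** -/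
theorem levelAction_modular (hσ : σ ∈ B.inertiaSubgroupIn ℚ) {S : Finset Kb}
    (hS : GalStable q σ S) :
    LevelAction (annulusLevels_modular_final B hB hqM hne e) S (gal (M * q) σ) where
  memA := fun c => apply_mem_iff B hσ c
  memK' := fun c => apply_mem_level_K'_iff B hB hqM hne e hσ hS c
  memR := fun y => smul_mem_level_R_iff B hB hqM hne e hσ hS y
  memT := fun P => smul_mem_tube_iff B hB hqM hne e hσ P

/-- the ring automorphism of `LevelAction` is `levelAut` -/
theorem ringAut_levelAction_modular (hσ : σ ∈ B.inertiaSubgroupIn ℚ) {S : Finset Kb}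
    (hS : GalStable q σ S) :
    (levelAction_modular B hB hqM hne e hσ hS).ringAut = levelAut B hB hqM hne e hσ hS := rfl

end Fermat.Agent.FF3.InertiaLevels
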