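/-
PROGRAMME I (S33, p-new half), node T4 (FRAME + INERTIA), the modular instance (helper29).

For `L := annulusLevels_modular_final B hB hqM hne e` (the levels of the tube of a crossing `e` of
the semistable model of `X₀(qM)` at `q`), a Galois-stable level `S`, `σ ∈ B.inertiaSubgroupIn ℚ`,
`g := gal (M * q) σ`, `(Ω, j, hj)` complete, `σΩ` an isometric ring endomorphism of `Ω` with
`σΩ ∘ j = j ∘ σ`:

* `denseNearOne_modular` : the collar hypothesis `DenseNearOne j`;
* `modConstHom`, `modTwist`, `modSigmaR`, `modSigmaB1`, `modSigmaB2` : the action of `σ` on the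
  completed constants `K₁ = constK₁ L S j`, on the integral node ring `NodeInt π₁`, on the node
  algebra `NodeB π₁` and on the two boundary rings `BAmice K₁`, with the squares
  `modSigmaR_algebraMap` (hcR), `modSigmaB1_toX` (ha1), `modSigmaB2_toY` (ha2) of `Glue.NodeHom`
  and the equivariance of the expansion `modTwist_levelExpand`, `modSigmaB1_toX_levelExpand`,
  `modSigmaB2_toY_levelExpand`.
-/
import Mathlib
import Fermat.Agent.FF3.InertiaLevels.TwistModular
import Fermat.Agent.FF3.InertiaLevels.NodeInst
import Fermat.Agent.FF3.ExpandBR.Modular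

set_option autoImplicit false
set_option linter.unusedSectionVars false
set_option synthInstance.maxHeartbeats 400000

noncomputable section

namespace Fermat.Agent.FF3.InertiaLevels

open AlgebraicCurve ModularCurve IsLocalRing
open Fermat.Agent.Red Fermat.Agent.Val Fermat.Agent.X0
open Fermat.Agent.BR Fermat.Agent.BR.SS Fermat.Agent.BR.Refine
open Fermat.Agent.BR.Centre Fermat.Agent.BR.S0 Fermat.Agent.BR.S0.RedModular
open Fermat.Agent.BR.S0.PointDict Fermat.Agent.BR.S0.AnnulusChartOfLevels
open Fermat.Agent.BR.ValTwo Fermat.Agent.BR.Inst.Levels Fermat.Agent.BR.Inst.AnnulusInstFinal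
open Fermat.Agent.FF3 Fermat.Agent.FF3.ExpandBR Fermat.Agent.FF3.Expand Fermat.Agent.FF3.Amice
  Fermat.Agent.FF3.NodeRing

attribute [local instance] normedAlgebraSubfield

local notation "Kb" => AlgebraicClosure ℚ

variable {M q : ℕ} [NeZero M] [hq : Fact q.Prime]
variable (B : ValuationSubring Kb) (hB : B.LiesOverPrime q) (hqM : ¬ q ∣ M)
variable [IsAlgClosed (ResidueField B)]
variable (hne : Nonempty (Crossing (chartDataModular B hB hqM)))
variable (e : Crossing (chartDataModular B hB hqM))
variable {σ : Kb ≃ₐ[ℚ] Kb}
variable {Ω : Type*} [NormedField Ω] [IsUltrametricDist Ω] [CompleteSpace Ω]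
  (j : Kb →+* Ω) (hj : ∀ c : Kb, ‖j c‖ ≤ 1 ↔ c ∈ B)
  (σΩ : Ω →+* Ω) (hnorm : ∀ x, ‖σΩ x‖ = ‖x‖) (hσj : ∀ c : Kb, σΩ (j c) = j (σ c))

include hB hj in
omit [NeZero M] [IsAlgClosed (ResidueField B)] [IsUltrametricDist Ω] [CompleteSpace Ω] in
/-- the collar hypothesis for the modular tower: `Kb` is algebraically closed and `‖j q‖ < 1` -/
theorem denseNearOne_modular : DenseNearOne j := by
  refine denseNearOne_of_isAlgClosed j ⟨(q : Kb), ?_, ?_⟩
  · exact_mod_cast hq.out.ne_zero
  · rw [norm_lt_one_iff j hj]
    exact (show (q : Kb) ∈ B.nonunits from hB)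

variable (hσ : σ ∈ B.inertiaSubgroupIn ℚ) {S : Finset Kb} (hS : GalStable q σ S)

/-- **The action of `σ` on the completed constants of the level `S`.** -/
def modConstHom :
    constK₁ (annulusLevels_modular_final B hB hqM hne e) S j →+*
      constK₁ (annulusLevels_modular_final B hB hqM hne e) S j :=
  (levelAction_modular B hB hqM hne e hσ hS).constK₁Hom j σΩ hnorm hσj

@[simp] theorem coe_modConstHom
    (x : constK₁ (annulusLevels_modular_final B hB hqM hne e) S j) :
    ((modConstHom B hB hqM hne e j σΩ hnorm hσj hσ hS x :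
      constK₁ (annulusLevels_modular_final B hB hqM hne e) S j) : Ω) = σΩ (x : Ω) := rfl

theorem norm_modConstHom
    (x : constK₁ (annulusLevels_modular_final B hB hqM hne e) S j) :
    ‖modConstHom B hB hqM hne e j σΩ hnorm hσj hσ hS x‖ = ‖x‖ :=
  hnorm (x : Ω)

/-- **The twist of the integral node ring of the level `S` by `σ`.** -/
def modTwist :
    NodeInt (thickK₁ (annulusLevels_modular_final B hB hqM hne e) S j) →+*
      NodeInt (thickK₁ (annulusLevels_modular_final B hB hqM hne e) S j) :=
  (levelAction_modular B hB hqM hne e hσ hS).levelTwist j hj σΩ hnorm hσj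
    (levelFullRes_modular_final B hB hqM hne e S) (denseNearOne_modular B hB j hj)

/-- **Equivariance of the expansion at the crossing `e`**. -/
theorem modTwist_levelExpand
    (y : ((annulusLevels_modular_final B hB hqM hne e).level S).R) :
    modTwist B hB hqM hne e j hj σΩ hnorm hσj hσ hS
        (levelExpand (annulusLevels_modular_final B hB hqM hne e) S j hj
          (levelFullRes_modular_final B hB hqM hne e S) (denseNearOne_modular B hB j hj) y) =
      levelExpand (annulusLevels_modular_final B hB hqM hne e) S j hj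
        (levelFullRes_modular_final B hB hqM hne e S) (denseNearOne_modular B hB j hj)
        (levelAut B hB hqM hne e hσ hS y) :=
  (levelAction_modular B hB hqM hne e hσ hS).levelTwist_levelExpand j hj σΩ hnorm hσj _ _ y

/-- (hc) -/
theorem modTwist_cInt
    (a : constK₁ (annulusLevels_modular_final B hB hqM hne e) S j) (ha : ‖a‖ ≤ 1) :
    modTwist B hB hqM hne e j hj σΩ hnorm hσj hσ hS (cInt a ha) =
      cInt (modConstHom B hB hqM hne e j σΩ hnorm hσj hσ hS a)
        ((norm_modConstHom B hB hqM hne e j σΩ hnorm hσj hσ hS a).le.trans ha) :=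
  (levelAction_modular B hB hqM hne e hσ hS).levelTwist_cInt j hj σΩ hnorm hσj _ _ a ha

/-- **The action of `σ` on the node algebra of the level `S` at the crossing `e`** (field `σR`). -/
def modSigmaR :
    NodeB (thickK₁ (annulusLevels_modular_final B hB hqM hne e) S j) →+*
      NodeB (thickK₁ (annulusLevels_modular_final B hB hqM hne e) S j) :=
  (levelAction_modular B hB hqM hne e hσ hS).levelSigmaR j hj σΩ hnorm hσj
    (levelFullRes_modular_final B hB hqM hne e S) (denseNearOne_modular B hB j hj)

/-- **The action of `σ` on the first boundary ring** (field `σB1`). -/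
def modSigmaB1 :
    BAmice (constK₁ (annulusLevels_modular_final B hB hqM hne e) S j) →+*
      BAmice (constK₁ (annulusLevels_modular_final B hB hqM hne e) S j) :=
  LevelAction.levelSigmaB1 (branchData_modular_final B hB hqM hne e)
    (levelAction_modular B hB hqM hne e hσ hS) j hj σΩ hnorm hσj
    (levelFullRes_modular_final B hB hqM hne e S) (denseNearOne_modular B hB j hj)
    (fun y => smul_mem_nonunits_setup_O_iff B hB hqM hne hσ _ y)

/-- **The action of `σ` on the second boundary ring** (field `σB2`). -/
def modSigmaB2 :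
    BAmice (constK₁ (annulusLevels_modular_final B hB hqM hne e) S j) →+*
      BAmice (constK₁ (annulusLevels_modular_final B hB hqM hne e) S j) :=
  LevelAction.levelSigmaB2 (branchData_modular_final B hB hqM hne e)
    (levelAction_modular B hB hqM hne e hσ hS) j hj σΩ hnorm hσj
    (levelFullRes_modular_final B hB hqM hne e S) (denseNearOne_modular B hB j hj)
    (fun y => smul_mem_nonunits_setup_O_iff B hB hqM hne hσ _ y)

/-- on the integral node ring, `modSigmaR` is the twist -/
theorem modSigmaR_coe
    (b : NodeInt (thickK₁ (annulusLevels_modular_final B hB hqM hne e) S j)) :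
    modSigmaR B hB hqM hne e j hj σΩ hnorm hσj hσ hS
        (b : NodeB (thickK₁ (annulusLevels_modular_final B hB hqM hne e) S j)) =
      (modTwist B hB hqM hne e j hj σΩ hnorm hσj hσ hS b :
        NodeB (thickK₁ (annulusLevels_modular_final B hB hqM hne e) S j)) :=
  (levelAction_modular B hB hqM hne e hσ hS).levelSigmaR_coe j hj σΩ hnorm hσj _ _ b

/-- **(hcR)** -/
theorem modSigmaR_algebraMap
    (a : constK₁ (annulusLevels_modular_final B hB hqM hne e) S j) :
    modSigmaR B hB hqM hne e j hj σΩ hnorm hσj hσ hS (algebraMap _ _ a) =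
      algebraMap _ _ (modConstHom B hB hqM hne e j σΩ hnorm hσj hσ hS a) :=
  (levelAction_modular B hB hqM hne e hσ hS).levelSigmaR_algebraMap j hj σΩ hnorm hσj _ _ a

/-- **(ha1)** -/
theorem modSigmaB1_toX
    (z : NodeB (thickK₁ (annulusLevels_modular_final B hB hqM hne e) S j)) :
    modSigmaB1 B hB hqM hne e j hj σΩ hnorm hσj hσ hS (toX z) =
      toX (modSigmaR B hB hqM hne e j hj σΩ hnorm hσj hσ hS z) :=
  LevelAction.levelSigmaB1_toX (branchData_modular_final B hB hqM hne e)
    (levelAction_modular B hB hqM hne e hσ hS) j hj σΩ hnorm hσj _ _ _ z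

/-- **(ha2)** -/
theorem modSigmaB2_toY
    (z : NodeB (thickK₁ (annulusLevels_modular_final B hB hqM hne e) S j)) :
    modSigmaB2 B hB hqM hne e j hj σΩ hnorm hσj hσ hS (toY z) =
      toY (modSigmaR B hB hqM hne e j hj σΩ hnorm hσj hσ hS z) :=
  LevelAction.levelSigmaB2_toY (branchData_modular_final B hB hqM hne e)
    (levelAction_modular B hB hqM hne e hσ hS) j hj σΩ hnorm hσj _ _ _ z

theorem norm_modSigmaB1_le
    (x : BAmice (constK₁ (annulusLevels_modular_final B hB hqM hne e) S j)) :
    ‖modSigmaB1 B hB hqM hne e j hj σΩ hnorm hσj hσ hS x‖ ≤ ‖x‖ :=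
  LevelAction.norm_levelSigmaB1_le (branchData_modular_final B hB hqM hne e)
    (levelAction_modular B hB hqM hne e hσ hS) j hj σΩ hnorm hσj _ _ _ x

theorem norm_modSigmaB2_le
    (x : BAmice (constK₁ (annulusLevels_modular_final B hB hqM hne e) S j)) :
    ‖modSigmaB2 B hB hqM hne e j hj σΩ hnorm hσj hσ hS x‖ ≤ ‖x‖ :=
  LevelAction.norm_levelSigmaB2_le (branchData_modular_final B hB hqM hne e)
    (levelAction_modular B hB hqM hne e hσ hS) j hj σΩ hnorm hσj _ _ _ x

theorem continuous_modSigmaB1 :
    Continuous (modSigmaB1 B hB hqM hne e j hj σΩ hnorm hσj hσ hS) :=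
  LevelAction.continuous_levelSigmaB1 (branchData_modular_final B hB hqM hne e)
    (levelAction_modular B hB hqM hne e hσ hS) j hj σΩ hnorm hσj _ _ _

theorem continuous_modSigmaB2 :
    Continuous (modSigmaB2 B hB hqM hne e j hj σΩ hnorm hσj hσ hS) :=
  LevelAction.continuous_levelSigmaB2 (branchData_modular_final B hB hqM hne e)
    (levelAction_modular B hB hqM hne e hσ hS) j hj σΩ hnorm hσj _ _ _

theorem modSigmaB1_algebraMap
    (a : constK₁ (annulusLevels_modular_final B hB hqM hne e) S j) :
    modSigmaB1 B hB hqM hne e j hj σΩ hnorm hσj hσ hS (algebraMap _ _ a) =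
      algebraMap _ _ (modConstHom B hB hqM hne e j σΩ hnorm hσj hσ hS a) :=
  LevelAction.levelSigmaB1_algebraMap (branchData_modular_final B hB hqM hne e)
    (levelAction_modular B hB hqM hne e hσ hS) j hj σΩ hnorm hσj _ _ _ a

theorem modSigmaB2_algebraMap
    (a : constK₁ (annulusLevels_modular_final B hB hqM hne e) S j) :
    modSigmaB2 B hB hqM hne e j hj σΩ hnorm hσj hσ hS (algebraMap _ _ a) =
      algebraMap _ _ (modConstHom B hB hqM hne e j σΩ hnorm hσj hσ hS a) :=
  LevelAction.levelSigmaB2_algebraMap (branchData_modular_final B hB hqM hne e)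
    (levelAction_modular B hB hqM hne e hσ hS) j hj σΩ hnorm hσj _ _ _ a

/-- **equivariance of the `X`-expansion at the crossing `e`** (the square against `b1` on the
functions of the level) -/
theorem modSigmaB1_toX_levelExpand
    (y : ((annulusLevels_modular_final B hB hqM hne e).level S).R) :
    modSigmaB1 B hB hqM hne e j hj σΩ hnorm hσj hσ hS
        (toX ((levelExpand (annulusLevels_modular_final B hB hqM hne e) S j hj
          (levelFullRes_modular_final B hB hqM hne e S) (denseNearOne_modular B hB j hj) y :
            NodeInt (thickK₁ (annulusLevels_modular_final B hB hqM hne e) S j)) :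
          NodeB (thickK₁ (annulusLevels_modular_final B hB hqM hne e) S j))) =
      toX ((levelExpand (annulusLevels_modular_final B hB hqM hne e) S j hj
          (levelFullRes_modular_final B hB hqM hne e S) (denseNearOne_modular B hB j hj)
          (levelAut B hB hqM hne e hσ hS y) :
            NodeInt (thickK₁ (annulusLevels_modular_final B hB hqM hne e) S j)) :
          NodeB (thickK₁ (annulusLevels_modular_final B hB hqM hne e) S j)) :=
  LevelAction.levelSigmaB1_toX_levelExpand (branchData_modular_final B hB hqM hne e)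
    (levelAction_modular B hB hqM hne e hσ hS) j hj σΩ hnorm hσj _ _ _ y

/-- **equivariance of the `Y`-expansion at the crossing `e`** -/
theorem modSigmaB2_toY_levelExpand
    (y : ((annulusLevels_modular_final B hB hqM hne e).level S).R) :
    modSigmaB2 B hB hqM hne e j hj σΩ hnorm hσj hσ hS
        (toY ((levelExpand (annulusLevels_modular_final B hB hqM hne e) S j hj
          (levelFullRes_modular_final B hB hqM hne e S) (denseNearOne_modular B hB j hj) y :
            NodeInt (thickK₁ (annulusLevels_modular_final B hB hqM hne e) S j)) :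
          NodeB (thickK₁ (annulusLevels_modular_final B hB hqM hne e) S j))) =
      toY ((levelExpand (annulusLevels_modular_final B hB hqM hne e) S j hj
          (levelFullRes_modular_final B hB hqM hne e S) (denseNearOne_modular B hB j hj)
          (levelAut B hB hqM hne e hσ hS y) :
            NodeInt (thickK₁ (annulusLevels_modular_final B hB hqM hne e) S j)) :
          NodeB (thickK₁ (annulusLevels_modular_final B hB hqM hne e) S j)) :=
  LevelAction.levelSigmaB2_toY_levelExpand (branchData_modular_final B hB hqM hne e)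
    (levelAction_modular B hB hqM hne e hσ hS) j hj σΩ hnorm hσj _ _ _ y

end Fermat.Agent.FF3.InertiaLevels
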